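/-
S37 Route P (sub-captain: helper31), leaf (P1): the function-level Eichler–Shimura congruence.
For an `A`-integral `y ∈ F̄_N` with reduction `ȳ ∈ F_k`, the function `T = N_α(β y) ∈ F̄_N`
(whose divisor is `T_ℓ (div y)`) is `A`-integral with reduction `(Fr • ȳ) · (Fr⁻¹ • ȳ) ^ ℓ`.
-/
import Mathlib
import Fermat.Agent.S37.Core
import Fermat.Agent.S37.KCCore
import Fermat.Agent.S37.W.Norm
import Fermat.Agent.S37.W.NormAlpha

set_option autoImplicit false

open ModularCurve AlgebraicCurve HahnSeries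

namespace Fermat.Agent.S37.P.ESFun

open Fermat.Agent.S37Core

noncomputable section

set_option synthInstance.maxHeartbeats 400000

/-- A primitive `ℓ`-th root of unity in `ℚ̄` (`ℓ ≠ 0`). -/
theorem exists_primitiveRoot_Qb (ℓ : ℕ) [NeZero ℓ] : ∃ ζ : Qb, IsPrimitiveRoot ζ ℓ :=
  HasEnoughRootsOfUnity.exists_primitiveRoot Qb ℓ

/-- The `q`-expansion of `N_α (β Y)`, in the `qExpand (ℓ * ℓ)` form consumed by
`KCCore.kronecker_core`. -/
theorem qExpand_norm_alpha_beta (N ℓ : ℕ) [NeZero N] [NeZero ℓ] [NeZero (ℓ * ℓ)]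
    (hℓ : ℓ.Prime) (hℓN : ¬ ℓ ∣ N) (ζ : Qb) (hζ : IsPrimitiveRoot ζ ℓ) (hz : ∀ i : ℕ, ζ ^ i ≠ 0)
    (Y : modularFunctionFieldBar N) :
    qExpand Qb ℓ
        (((letI := algebraAlong (heckeAlphaBar Qb N ℓ)
           Algebra.norm (modularFunctionFieldBar N) (heckeBetaBar Qb N ℓ Y)) :
            modularFunctionFieldBar N) : LaurentSeries Qb) =
      qExpand Qb (ℓ * ℓ) (Y : LaurentSeries Qb) *
        ∏ i ∈ Finset.range ℓ, Fermat.Agent.S24.rotHom (ζ ^ i) (hz i) (Y : LaurentSeries Qb) := by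
  have h := Fermat.Agent.S37.W.qExpand_norm_alpha_beta_of N ℓ hℓ hℓN ζ hz Y
    (Fermat.Agent.S37.W.qExpand_norm_beta_alpha N ℓ hℓ hℓN ζ hζ hz Y)
  rw [qExpand_qExpand] at h
  exact h

/-- **(P1)** function-level Eichler–Shimura congruence. -/
theorem exists_integral_norm (N ℓ : ℕ) [NeZero N] [NeZero ℓ] (hℓ : ℓ.Prime) (hℓN : ¬ ℓ ∣ N)
    (A : ValuationSubring Qb) (hA : A.LiesOverPrime ℓ) (φ : GQ) (hφ : A.IsFrobeniusAt φ ℓ)
    (y : LaurentSeries A) (hy : coeffMap A.subtype y ∈ modularFunctionFieldBar N)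
    (hyk : coeffMap (IsLocalRing.residue A) y ∈
      modularFunctionFieldFullC (IsLocalRing.ResidueField A) N) :
    ∃ (t : LaurentSeries A) (htk : coeffMap (IsLocalRing.residue A) t ∈
        modularFunctionFieldFullC (IsLocalRing.ResidueField A) N),
      coeffMap A.subtype t =
        (((letI := algebraAlong (heckeAlphaBar Qb N ℓ)
           Algebra.norm (modularFunctionFieldBar N)
            (heckeBetaBar Qb N ℓ ⟨coeffMap A.subtype y, hy⟩)) : modularFunctionFieldBar N) :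
          LaurentSeries Qb) ∧
      (⟨coeffMap (IsLocalRing.residue A) t, htk⟩ :
          modularFunctionFieldFullC (IsLocalRing.ResidueField A) N) =
        (decompSL A N ⟨φ, hφ.mem_decompositionSubgroup⟩ •
            (⟨coeffMap (IsLocalRing.residue A) y, hyk⟩ :
              modularFunctionFieldFullC (IsLocalRing.ResidueField A) N)) *
          ((decompSL A N ⟨φ, hφ.mem_decompositionSubgroup⟩)⁻¹ •
            (⟨coeffMap (IsLocalRing.residue A) y, hyk⟩ :
              modularFunctionFieldFullC (IsLocalRing.ResidueField A) N)) ^ ℓ := by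
  have : Fact ℓ.Prime := ⟨hℓ⟩
  have : NeZero (ℓ * ℓ) := ⟨mul_ne_zero hℓ.ne_zero hℓ.ne_zero⟩
  obtain ⟨ζ, hζ⟩ := exists_primitiveRoot_Qb ℓ
  have hz : ∀ i : ℕ, ζ ^ i ≠ 0 := fun i => pow_ne_zero i (hζ.ne_zero hℓ.ne_zero)
  have hT := qExpand_norm_alpha_beta N ℓ hℓ hℓN ζ hζ hz ⟨coeffMap A.subtype y, hy⟩
  obtain ⟨t, ht, htk, heq⟩ :=
    Fermat.Agent.S37.KCCore.kronecker_core (N := N) hA hφ hζ hz y _ hT hyk
  exact ⟨t, htk, ht, heq⟩

end

end Fermat.Agent.S37.P.ESFun
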