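/-
S37 Route P (sub-captain: helper31), leaf (P2): the Eichler–Shimura congruence on PRINCIPAL
divisors, for ANY place map `r` with the frozen reduction property:
`r_* (T_ℓ D) = Fr • r_* D + ℓ • (Fr⁻¹ • r_* D)` for `D` principal.
(Proved by helper124.)
-/
import Mathlib
import Fermat.Agent.S37.Core
import Fermat.Agent.S37.HeckeInputs
import Fermat.Agent.S37.P.ESFun

set_option autoImplicit false
set_option linter.style.haveILetI false

open ModularCurve AlgebraicCurve HahnSeries

namespace Fermat.Agent.S37.P.ESPrin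

open Fermat.Agent.S37Core

noncomputable section

set_option synthInstance.maxHeartbeats 400000

section Generic

variable {K F F' : Type*} [Field K] [Field F] [Field F'] [Algebra K F] [Algebra K F']

/-- The correspondence `ψ_* ∘ φ^*` sends the divisor of `f ≠ 0` to the divisor of the norm
`N_ψ (φ f)`. -/
theorem ESPrin_correspondence_apply_eq_ord_norm [HasPrincipalDivisors K F']
    (φ ψ : F →ₐ[K] F') (hφ : φ.toRingHom.IsIntegral) (hψ : ψ.toRingHom.IsIntegral)
    (hfin : FiniteAlong K ψ) (hN : NormFormulaAlong K ψ hfin)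
    {D : Divisor K F} {f : F} (hf : f ≠ 0) (hDf : ∀ v : Place K F, D v = v.ord f)
    (v : Place K F) :
    Divisor.correspondence φ ψ hφ hψ D v =
      v.ord (letI := algebraAlong ψ; Algebra.norm F (φ f)) := by
  rw [Divisor.correspondence_apply]
  have h1 : ∀ w : Place K F', Divisor.pullbackAlong φ hφ D w = w.ord (φ f) := by
    intro w
    letI := algebraAlong φ
    haveI := isScalarTower_along φ
    haveI := isIntegral_along φ hφ
    exact Divisor.pullback_apply_eq_ord hDf w
  have hφf : φ f ≠ 0 := (map_ne_zero φ).mpr hf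
  letI := algebraAlong ψ
  haveI := isScalarTower_along ψ
  haveI : Module.Finite F F' := hfin
  exact hN (φ f) hφf _ h1 v

/-- The order of `g • x` at `Q` is the order of `x` at `g⁻¹ • Q`. -/
theorem ESPrin_ord_smul (g : SemilinearAut K F) (Q : Place K F) (x : F) :
    Q.ord (g • x) = (g⁻¹ • Q).ord x := by
  have h := SemilinearAut.ord_smul g (g⁻¹ • Q) x
  rwa [smul_inv_smul] at h

/-- A semilinear automorphism preserves being nonzero. -/
theorem ESPrin_smul_ne_zero (g : SemilinearAut K F) {x : F} (hx : x ≠ 0) : g • x ≠ 0 := by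
  intro h
  apply hx
  have h2 : g⁻¹ • (g • x) = g⁻¹ • (0 : F) := congrArg (g⁻¹ • ·) h
  rwa [inv_smul_smul, smul_zero] at h2

/-- Two additive maps agreeing on a set agree on the subgroup it generates. -/
theorem ESPrin_eq_of_mem_closure {G H : Type*} [AddCommGroup G] [AddCommGroup H] (S : Set G)
    (f g : G →+ H) (h : ∀ x ∈ S, f x = g x) {x : G} (hx : x ∈ AddSubgroup.closure S) :
    f x = g x := by
  induction hx using AddSubgroup.closure_induction with
  | mem y hy => exact h y hy
  | zero => rw [map_zero, map_zero]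
  | add y z _ _ hy hz => rw [map_add, map_add, hy, hz]
  | neg y _ hy => rw [map_neg, map_neg, hy]

end Generic

/-- `coeffMap` along the inclusion of a valuation ring is injective. -/
theorem ESPrin_coeffMap_subtype_eq_zero {L : Type*} [Field L] (A : ValuationSubring L)
    {y : LaurentSeries A} (h : coeffMap A.subtype y = 0) : y = 0 := by
  ext n
  have hn := congrArg (fun z : LaurentSeries L => z.coeff n) h
  simpa using hn

set_option maxHeartbeats 1600000 in
/-- The integral-principal case of **(P2)**. -/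
theorem ESPrin_mapDomain_heckeDivBar_of_integral (N ℓ : ℕ) [NeZero N] [NeZero ℓ] (hℓ : ℓ.Prime)
    (hℓN : ¬ ℓ ∣ N) (A : ValuationSubring Qb) (hA : A.LiesOverPrime ℓ)
    (r : Place Qb (modularFunctionFieldBar N) →
      Place (IsLocalRing.ResidueField A)
        (modularFunctionFieldFullC (IsLocalRing.ResidueField A) N))
    (hr : IsPlaceReductionModL A N r)
    (φ : GQ) (hφ : A.IsFrobeniusAt φ ℓ)
    (hα : HeckeAlphaBarIntegral Qb N ℓ) (hβ : HeckeBetaBarIntegral Qb N ℓ)
    [HasPrincipalDivisors Qb (laurentBaseChange Qb (modularFunctionFieldFull (N * ℓ)))]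
    (D : Divisor Qb (modularFunctionFieldBar N))
    (hD : D ∈ integralPrincipalDivisors A (IsLocalRing.residue A) N) :
    Finsupp.mapDomain r (heckeDivBar hα hβ D) =
      decompSL A N ⟨φ, hφ.mem_decompositionSubgroup⟩ • Finsupp.mapDomain r D +
        (ℓ : ℤ) • ((decompSL A N ⟨φ, hφ.mem_decompositionSubgroup⟩)⁻¹ •
          Finsupp.mapDomain r D) := by
  obtain ⟨y, hy, hyk, hne, hDy⟩ := hD
  haveI : NeZero (N * ℓ) := ⟨mul_ne_zero (NeZero.ne N) (NeZero.ne ℓ)⟩
  -- the generic function-field inputs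
  have hFN : Fermat.Agent.S24.IsFF1 Qb (modularFunctionFieldBar N) :=
    Fermat.Agent.S37.HI.isFF1_modular N
  have hFNl : Fermat.Agent.S24.IsFF1 Qb (modularFunctionFieldBar (N * ℓ)) :=
    Fermat.Agent.S37.HI.isFF1_modular (N * ℓ)
  have hfin : FiniteAlong Qb (heckeAlphaBar Qb N ℓ) :=
    Fermat.Agent.S37.HI.finiteAlong_of_isFF1 hFN hFNl _
  have hN : NormFormulaAlong Qb (heckeAlphaBar Qb N ℓ) hfin :=
    Fermat.Agent.S37.HI.normFormulaAlong_of_isFF1 hFN hFNl _ hfin
  -- `Y ≠ 0` and `ȳ ≠ 0`
  have hY0 : (⟨coeffMap A.subtype y, hy⟩ : modularFunctionFieldBar N) ≠ 0 := by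
    intro h
    apply hne
    have h1 : coeffMap A.subtype y = 0 := congrArg Subtype.val h
    rw [ESPrin_coeffMap_subtype_eq_zero A h1, map_zero]
  have hyb0 : (⟨coeffMap (IsLocalRing.residue A) y, hyk⟩ :
      modularFunctionFieldFullC (IsLocalRing.ResidueField A) N) ≠ 0 :=
    fun h => hne (congrArg Subtype.val h)
  -- the function-level congruence
  obtain ⟨t, htk, ht1, ht2⟩ :=
    Fermat.Agent.S37.P.ESFun.exists_integral_norm N ℓ hℓ hℓN A hA φ hφ y hy hyk
  have ht : coeffMap A.subtype t ∈ modularFunctionFieldBar N := by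
    rw [ht1]
    exact Subtype.property _
  have hE : ∀ P : Place Qb (modularFunctionFieldBar N),
      heckeDivBar hα hβ D P = P.ord (⟨coeffMap A.subtype t, ht⟩ : modularFunctionFieldBar N) := by
    intro P
    have h := ESPrin_correspondence_apply_eq_ord_norm (heckeBetaBar Qb N ℓ) (heckeAlphaBar Qb N ℓ)
      hβ hα hfin hN hY0 hDy P
    have heq : (⟨coeffMap A.subtype t, ht⟩ : modularFunctionFieldBar N) =
        (letI := algebraAlong (heckeAlphaBar Qb N ℓ)
         Algebra.norm (modularFunctionFieldBar N)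
          (heckeBetaBar Qb N ℓ ⟨coeffMap A.subtype y, hy⟩)) := Subtype.ext ht1
    rw [heq]
    exact h
  have hFy0 := ESPrin_smul_ne_zero (decompSL A N ⟨φ, hφ.mem_decompositionSubgroup⟩) hyb0
  have hFiy0 := ESPrin_smul_ne_zero (decompSL A N ⟨φ, hφ.mem_decompositionSubgroup⟩)⁻¹ hyb0
  have htb0 : coeffMap (IsLocalRing.residue A) t ≠ 0 := by
    intro h0
    have h1 : (⟨coeffMap (IsLocalRing.residue A) t, htk⟩ :
        modularFunctionFieldFullC (IsLocalRing.ResidueField A) N) = 0 := Subtype.ext h0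
    rw [ht2] at h1
    exact mul_ne_zero hFy0 (pow_ne_zero ℓ hFiy0) h1
  ext Q
  rw [hr.2 t ht htk htb0 _ hE Q, ht2, Place.ord_mul Q hFy0 (pow_ne_zero ℓ hFiy0),
    ← zpow_natCast, Place.ord_zpow, ESPrin_ord_smul, ESPrin_ord_smul, Finsupp.add_apply,
    Finsupp.smul_apply, SemilinearAut.divisor_smul_apply, SemilinearAut.divisor_smul_apply,
    hr.2 y hy hyk hne D hDy, hr.2 y hy hyk hne D hDy, smul_eq_mul]

set_option maxHeartbeats 1600000 in
/-- **(P2)** Eichler–Shimura on principal divisors. -/
theorem mapDomain_heckeDivBar_of_principal (N ℓ : ℕ) [NeZero N] [NeZero ℓ] (hℓ : ℓ.Prime)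
    (hℓN : ¬ ℓ ∣ N) (A : ValuationSubring Qb) (hA : A.LiesOverPrime ℓ)
    (r : Place Qb (modularFunctionFieldBar N) →
      Place (IsLocalRing.ResidueField A)
        (modularFunctionFieldFullC (IsLocalRing.ResidueField A) N))
    (hr : IsPlaceReductionModL A N r)
    (hgen : PrincipalGeneratedByIntegral A (IsLocalRing.residue A) N)
    (φ : GQ) (hφ : A.IsFrobeniusAt φ ℓ)
    (hα : HeckeAlphaBarIntegral Qb N ℓ) (hβ : HeckeBetaBarIntegral Qb N ℓ)
    [HasPrincipalDivisors Qb (laurentBaseChange Qb (modularFunctionFieldFull (N * ℓ)))]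
    (D : Divisor Qb (modularFunctionFieldBar N))
    (hD : D ∈ Divisor.principal (K := Qb) (F := modularFunctionFieldBar N)) :
    Finsupp.mapDomain r (heckeDivBar hα hβ D) =
      decompSL A N ⟨φ, hφ.mem_decompositionSubgroup⟩ • Finsupp.mapDomain r D +
        (ℓ : ℤ) • ((decompSL A N ⟨φ, hφ.mem_decompositionSubgroup⟩)⁻¹ •
          Finsupp.mapDomain r D) := by
  exact ESPrin_eq_of_mem_closure (integralPrincipalDivisors A (IsLocalRing.residue A) N)
    ((Finsupp.mapDomain.addMonoidHom r).comp (heckeDivBar hα hβ))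
    ((DistribSMul.toAddMonoidHom
          (Divisor (IsLocalRing.ResidueField A)
            (modularFunctionFieldFullC (IsLocalRing.ResidueField A) N))
          (decompSL A N ⟨φ, hφ.mem_decompositionSubgroup⟩)).comp
        (Finsupp.mapDomain.addMonoidHom r) +
      (ℓ : ℤ) • ((DistribSMul.toAddMonoidHom
          (Divisor (IsLocalRing.ResidueField A)
            (modularFunctionFieldFullC (IsLocalRing.ResidueField A) N))
          (decompSL A N ⟨φ, hφ.mem_decompositionSubgroup⟩)⁻¹).comp
        (Finsupp.mapDomain.addMonoidHom r)))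
    (fun E hE => ESPrin_mapDomain_heckeDivBar_of_integral N ℓ hℓ hℓN A hA r hr φ hφ hα hβ E hE)
    (hgen hD)

end

end Fermat.Agent.S37.P.ESPrin
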