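/-
S37 Route-P leaf (P4) (helper129): the bounded-`δ` trick, pure `Finsupp` algebra.

* `l1 D` : the `ℓ¹`-norm of an integral divisor `D : α →₀ ℤ`;
* `l1_apply_le_of_single_le` : an additive map `δ` with `l1 (δ (single u 1)) ≤ C` for all `u`
  satisfies `l1 (δ D) ≤ C * l1 D`;
* `eq_zero_of_bounded` : if `δ` kills the subgroup `P`, is bounded on single points, and every
  element of the subgroup `S` is congruent mod `P` to an element of bounded `ℓ¹`-norm, then `δ`
  kills `S`.
-/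
import Mathlib

set_option autoImplicit false

namespace Fermat.Agent.S37.P.BddKill

variable {α β : Type*}

/-- The `ℓ¹`-norm of an integer-valued finitely supported function. -/
def l1 (D : α →₀ ℤ) : ℕ := D.sum fun _ n => n.natAbs

theorem l1_eq_sum_of_subset {D : α →₀ ℤ} {s : Finset α} (h : D.support ⊆ s) :
    l1 D = ∑ a ∈ s, (D a).natAbs :=
  Finsupp.sum_of_support_subset D h _ (fun _ _ => Int.natAbs_zero)

theorem l1_eq_sum_support (D : α →₀ ℤ) : l1 D = ∑ a ∈ D.support, (D a).natAbs := rfl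

@[simp]
theorem l1_zero : l1 (0 : α →₀ ℤ) = 0 := by
  simp [l1]

@[simp]
theorem l1_single (u : α) (n : ℤ) : l1 (Finsupp.single u n) = n.natAbs := by
  rw [l1, Finsupp.sum_single_index Int.natAbs_zero]

theorem l1_add_le (D E : α →₀ ℤ) : l1 (D + E) ≤ l1 D + l1 E := by
  classical
  have hD : D.support ⊆ D.support ∪ E.support := Finset.subset_union_left
  have hE : E.support ⊆ D.support ∪ E.support := Finset.subset_union_right
  have hDE : (D + E).support ⊆ D.support ∪ E.support := Finsupp.support_add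
  rw [l1_eq_sum_of_subset hD, l1_eq_sum_of_subset hE, l1_eq_sum_of_subset hDE,
    ← Finset.sum_add_distrib]
  refine Finset.sum_le_sum fun a _ => ?_
  rw [Finsupp.add_apply]
  exact Int.natAbs_add_le _ _

@[simp]
theorem l1_neg (D : α →₀ ℤ) : l1 (-D) = l1 D := by
  rw [l1_eq_sum_support, l1_eq_sum_support, Finsupp.support_neg]
  refine Finset.sum_congr rfl fun a _ => ?_
  rw [Finsupp.neg_apply, Int.natAbs_neg]

theorem l1_sub_le (D E : α →₀ ℤ) : l1 (D - E) ≤ l1 D + l1 E := by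
  rw [sub_eq_add_neg]
  exact (l1_add_le D (-E)).trans (by rw [l1_neg])

theorem l1_zsmul (z : ℤ) (D : α →₀ ℤ) : l1 (z • D) = z.natAbs * l1 D := by
  have h : (z • D).support ⊆ D.support := Finsupp.support_smul
  rw [l1_eq_sum_of_subset h, l1_eq_sum_support, Finset.mul_sum]
  refine Finset.sum_congr rfl fun a _ => ?_
  rw [Finsupp.smul_apply, smul_eq_mul, Int.natAbs_mul]

theorem l1_nsmul (n : ℕ) (D : α →₀ ℤ) : l1 (n • D) = n * l1 D := by
  rw [← natCast_zsmul, l1_zsmul, Int.natAbs_natCast]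

theorem l1_eq_zero_iff {D : α →₀ ℤ} : l1 D = 0 ↔ D = 0 := by
  constructor
  · intro h
    rw [l1_eq_sum_support, Finset.sum_eq_zero_iff] at h
    ext a
    by_cases ha : a ∈ D.support
    · exact Int.natAbs_eq_zero.mp (h a ha)
    · simpa using ha
  · rintro rfl
    exact l1_zero

theorem l1_sum_le {ι : Type*} (s : Finset ι) (D : ι → α →₀ ℤ) :
    l1 (∑ i ∈ s, D i) ≤ ∑ i ∈ s, l1 (D i) := by
  classical
  induction s using Finset.induction_on with
  | empty => simp
  | insert i s hi ih =>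
    rw [Finset.sum_insert hi, Finset.sum_insert hi]
    exact (l1_add_le _ _).trans (Nat.add_le_add_left ih _)

theorem l1_mapDomain_le (f : α → β) (D : α →₀ ℤ) : l1 (Finsupp.mapDomain f D) ≤ l1 D := by
  rw [Finsupp.mapDomain, Finsupp.sum]
  refine (l1_sum_le _ _).trans ?_
  rw [l1_eq_sum_support]
  exact Finset.sum_le_sum fun a _ => by rw [l1_single]

/-- An additive map that is `ℓ¹`-bounded by `C` on single points is `ℓ¹`-bounded by `C * l1`. -/
theorem l1_apply_le_of_single_le (δ : (α →₀ ℤ) →+ (β →₀ ℤ)) (C : ℕ)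
    (hC : ∀ u, l1 (δ (Finsupp.single u 1)) ≤ C) (D : α →₀ ℤ) : l1 (δ D) ≤ C * l1 D := by
  have hD : D = ∑ a ∈ D.support, (D a) • Finsupp.single a (1 : ℤ) := by
    conv_lhs => rw [← Finsupp.sum_single D]
    rw [Finsupp.sum]
    refine Finset.sum_congr rfl fun a _ => ?_
    rw [Finsupp.smul_single, smul_eq_mul, mul_one]
  have h1 : δ D = ∑ a ∈ D.support, (D a) • δ (Finsupp.single a (1 : ℤ)) := by
    conv_lhs => rw [hD]
    rw [map_sum]
    exact Finset.sum_congr rfl fun a _ => map_zsmul δ _ _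
  rw [h1]
  refine (l1_sum_le _ _).trans ?_
  rw [l1_eq_sum_support D, Finset.mul_sum]
  refine Finset.sum_le_sum fun a _ => ?_
  rw [l1_zsmul, mul_comm]
  exact Nat.mul_le_mul_right _ (hC a)

/-- **The bounded-`δ` trick.**  If `δ` kills `P`, is `ℓ¹`-bounded on single points, and every
element of `S` is congruent modulo `P` to an element of `ℓ¹`-norm at most `M`, then `δ` kills
`S`. -/
theorem eq_zero_of_bounded (S P : AddSubgroup (α →₀ ℤ)) (δ : (α →₀ ℤ) →+ (β →₀ ℤ))
    (hP : ∀ D ∈ P, δ D = 0) (C : ℕ) (hC : ∀ u, l1 (δ (Finsupp.single u 1)) ≤ C) (M : ℕ)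
    (hM : ∀ D ∈ S, ∃ D', D - D' ∈ P ∧ l1 D' ≤ M) : ∀ D ∈ S, δ D = 0 := by
  intro D hD
  rw [← l1_eq_zero_iff]
  have key : ∀ n : ℕ, n * l1 (δ D) ≤ C * M := by
    intro n
    obtain ⟨D', hD'P, hD'M⟩ := hM (n • D) (S.nsmul_mem hD n)
    have h0 := hP _ hD'P
    rw [map_sub, sub_eq_zero] at h0
    calc n * l1 (δ D) = l1 (n • δ D) := (l1_nsmul n _).symm
      _ = l1 (δ (n • D)) := by rw [map_nsmul]
      _ = l1 (δ D') := by rw [h0]
      _ ≤ C * l1 D' := l1_apply_le_of_single_le δ C hC D'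
      _ ≤ C * M := Nat.mul_le_mul_left _ hD'M
  by_contra hne
  have hpos : 1 ≤ l1 (δ D) := Nat.one_le_iff_ne_zero.mpr hne
  have h := key (C * M + 1)
  have h2 : C * M + 1 ≤ (C * M + 1) * l1 (δ D) := Nat.le_mul_of_pos_right _ hpos
  omega

end Fermat.Agent.S37.P.BddKill
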