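/-
S37 Route P (sub-captain: helper31), leaf (P3): decomposition-group equivariance on PRINCIPAL
divisors, for ANY place map `r` with the frozen reduction property:
`r_* (g • D) = decompSL g • r_* D` for `D` principal.

Proof (helper54).  By `PrincipalGeneratedByIntegral` it suffices to treat the divisor `D` of an
`A`-integral function `y` with nonzero reduction `ȳ ∈ F_k`.  For `g` in the decomposition group
of `A`, the series `y^g` (apply `g` to the coefficients, which stay in `A`) is again
`A`-integral, its image in `ℚ̄((q))` is `g • y`, whose divisor is `g • D`, and its reduction is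
`decompSL g • ȳ`.  Apply the conservation property of `r` to `y` and to `y^g`.
-/
import Mathlib
import Fermat.Agent.S37.Core

set_option autoImplicit false

open ModularCurve AlgebraicCurve HahnSeries

namespace Fermat.Agent.S37.P.EquivPrin

open Fermat.Agent.S37Core

noncomputable section

set_option synthInstance.maxHeartbeats 400000

/-! ### The decomposition group acting on `A` and on `A((q))` -/

section Act

variable {A : ValuationSubring Qb}

/-- The ring endomorphism of `A` induced by an element of the decomposition group. -/
def actA (g : A.decompositionSubgroup ℚ) : A →+* A :=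
  MulSemiringAction.toRingHom (A.decompositionSubgroup ℚ) A g

theorem subtype_comp_actA (g : A.decompositionSubgroup ℚ) :
    A.subtype.comp (actA g) = ((g : GQ) : Qb →+* Qb).comp A.subtype :=
  RingHom.ext fun _ => rfl

theorem residue_comp_actA (g : A.decompositionSubgroup ℚ) :
    (IsLocalRing.residue A).comp (actA g) =
      ((resAut A g : IsLocalRing.ResidueField A ≃+* IsLocalRing.ResidueField A) :
        IsLocalRing.ResidueField A →+* IsLocalRing.ResidueField A).comp (IsLocalRing.residue A) :=
  RingHom.ext fun a => IsLocalRing.ResidueField.residue_smul _ g a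

/-- The coefficientwise action on `A((q))` is compatible with the inclusion into `ℚ̄((q))`. -/
theorem coeffMap_subtype_actA (g : A.decompositionSubgroup ℚ) (X : LaurentSeries A) :
    coeffMap A.subtype (coeffMap (actA g) X) =
      coeffMap ((g : GQ) : Qb →+* Qb) (coeffMap A.subtype X) := by
  rw [coeffMap_coeffMap, coeffMap_coeffMap, subtype_comp_actA]

/-- The coefficientwise action on `A((q))` is compatible with reduction. -/
theorem coeffMap_residue_actA (g : A.decompositionSubgroup ℚ) (X : LaurentSeries A) :
    coeffMap (IsLocalRing.residue A) (coeffMap (actA g) X) =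
      coeffMap ((resAut A g : IsLocalRing.ResidueField A ≃+* IsLocalRing.ResidueField A) :
        IsLocalRing.ResidueField A →+* IsLocalRing.ResidueField A)
        (coeffMap (IsLocalRing.residue A) X) := by
  rw [coeffMap_coeffMap, coeffMap_coeffMap, residue_comp_actA]

end Act

/-! ### Equivariance on the divisor of an integral function -/

section Main

variable {A : ValuationSubring Qb} {N : ℕ}

/-- The divisor `g • D` of `g • f`, when `D` is the divisor of `f`. -/
theorem smul_divisor_apply_of_ord (G : SemilinearAut Qb (modularFunctionFieldBar N))
    (D : Divisor Qb (modularFunctionFieldBar N)) (f : modularFunctionFieldBar N)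
    (hD : ∀ P, D P = P.ord f) (P : Place Qb (modularFunctionFieldBar N)) :
    (G • D) P = P.ord (G • f) := by
  rw [SemilinearAut.divisor_smul_apply, hD]
  have h := SemilinearAut.ord_smul G (G⁻¹ • P) f
  rw [smul_inv_smul] at h
  exact h.symm

set_option maxHeartbeats 1600000 in
/-- Equivariance on the divisor of an `A`-integral function with nonzero reduction. -/
theorem mapDomain_smul_of_integral
    (r : Place Qb (modularFunctionFieldBar N) →
      Place (IsLocalRing.ResidueField A)
        (modularFunctionFieldFullC (IsLocalRing.ResidueField A) N))
    (hr : IsPlaceReductionModL A N r) (g : A.decompositionSubgroup ℚ)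
    (D : Divisor Qb (modularFunctionFieldBar N))
    (hD : D ∈ integralPrincipalDivisors A (IsLocalRing.residue A) N) :
    Finsupp.mapDomain r (arithmeticGalois (modularFunctionFieldFull N) (g : GQ) • D) =
      decompSL A N g • Finsupp.mapDomain r D := by
  obtain ⟨y, hy, hyk, hne, hDy⟩ := hD
  -- the translated series
  have e1 : coeffMap A.subtype (coeffMap (actA g) y) =
      ((arithmeticGalois (modularFunctionFieldFull N) (g : GQ) •
        (⟨coeffMap A.subtype y, hy⟩ : modularFunctionFieldBar N) : modularFunctionFieldBar N) :
          LaurentSeries Qb) := coeffMap_subtype_actA g y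
  have hy' : coeffMap A.subtype (coeffMap (actA g) y) ∈ modularFunctionFieldBar N := by
    rw [e1]; exact Subtype.property _
  have e2 : coeffMap (IsLocalRing.residue A) (coeffMap (actA g) y) =
      ((decompSL A N g • (⟨coeffMap (IsLocalRing.residue A) y, hyk⟩ :
        modularFunctionFieldFullC (IsLocalRing.ResidueField A) N) :
          modularFunctionFieldFullC (IsLocalRing.ResidueField A) N) :
        LaurentSeries (IsLocalRing.ResidueField A)) := coeffMap_residue_actA g y
  have hyk' : coeffMap (IsLocalRing.residue A) (coeffMap (actA g) y) ∈
      modularFunctionFieldFullC (IsLocalRing.ResidueField A) N := by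
    rw [e2]; exact Subtype.property _
  have hne' : coeffMap (IsLocalRing.residue A) (coeffMap (actA g) y) ≠ 0 := by
    rw [e2]
    intro h0
    have h1 : decompSL A N g • (⟨coeffMap (IsLocalRing.residue A) y, hyk⟩ :
        modularFunctionFieldFullC (IsLocalRing.ResidueField A) N) = 0 := Subtype.ext h0
    rw [smul_eq_zero_iff_eq] at h1
    exact hne (congrArg Subtype.val h1)
  -- the divisor of the translated function
  have hD' : ∀ P, (arithmeticGalois (modularFunctionFieldFull N) (g : GQ) • D) P =
      P.ord (⟨coeffMap A.subtype (coeffMap (actA g) y), hy'⟩ : modularFunctionFieldBar N) := by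
    intro P
    rw [smul_divisor_apply_of_ord _ D _ hDy P]
    exact congrArg P.ord (Subtype.ext e1.symm)
  ext Q
  rw [hr.2 (coeffMap (actA g) y) hy' hyk' hne' _ hD' Q, SemilinearAut.divisor_smul_apply,
    hr.2 y hy hyk hne D hDy]
  have h := SemilinearAut.ord_smul (decompSL A N g) ((decompSL A N g)⁻¹ • Q)
    (⟨coeffMap (IsLocalRing.residue A) y, hyk⟩ :
      modularFunctionFieldFullC (IsLocalRing.ResidueField A) N)
  rw [smul_inv_smul] at h
  rw [← h]
  exact congrArg Q.ord (Subtype.ext e2)

set_option maxHeartbeats 1600000 in
/-- **(P3)** equivariance on principal divisors. -/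
theorem mapDomain_smul_of_principal (N : ℕ) [NeZero N] (A : ValuationSubring Qb)
    (r : Place Qb (modularFunctionFieldBar N) →
      Place (IsLocalRing.ResidueField A)
        (modularFunctionFieldFullC (IsLocalRing.ResidueField A) N))
    (hr : IsPlaceReductionModL A N r)
    (hgen : PrincipalGeneratedByIntegral A (IsLocalRing.residue A) N)
    (g : A.decompositionSubgroup ℚ)
    (D : Divisor Qb (modularFunctionFieldBar N))
    (hD : D ∈ Divisor.principal (K := Qb) (F := modularFunctionFieldBar N)) :
    Finsupp.mapDomain r (arithmeticGalois (modularFunctionFieldFull N) (g : GQ) • D) =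
      decompSL A N g • Finsupp.mapDomain r D := by
  have key : Set.EqOn
      ((Finsupp.mapDomain.addMonoidHom r).comp
        (DistribSMul.toAddMonoidHom (Divisor Qb (modularFunctionFieldBar N))
          (arithmeticGalois (modularFunctionFieldFull N) (g : GQ))))
      ((DistribSMul.toAddMonoidHom
        (Divisor (IsLocalRing.ResidueField A)
          (modularFunctionFieldFullC (IsLocalRing.ResidueField A) N)) (decompSL A N g)).comp
        (Finsupp.mapDomain.addMonoidHom r))
      (AddSubgroup.closure (integralPrincipalDivisors A (IsLocalRing.residue A) N)) :=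
    AddMonoidHom.eqOn_closure fun D hD => mapDomain_smul_of_integral r hr g D hD
  exact key (hgen hD)

end Main

end

end Fermat.Agent.S37.P.EquivPrin
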