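/-
S37 Route P (sub-captain: helper31), leaf (P4b): the Hecke correspondence is `ℓ¹`-bounded on
single places: `‖T_ℓ (u)‖₁ ≤ [F̄_{Nℓ} : β F̄_N]`.
-/
import Mathlib
import Fermat.Agent.S37.Core
import Fermat.Agent.S37.HeckeInputs
import Fermat.Agent.S37.P.BddKill

set_option autoImplicit false

open ModularCurve AlgebraicCurve HahnSeries

namespace Fermat.Agent.S37.P.HeckeBound

open Fermat.Agent.S37Core Fermat.Agent.S37.P.BddKill

noncomputable section

set_option synthInstance.maxHeartbeats 400000

section Generic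

variable {K F F' : Type*} [Field K] [Field F] [Field F'] [Algebra K F] [Algebra K F']
variable [HasPrincipalDivisors K F']

/-- The correspondence `ψ_* φ^*` applied to a single place, as an explicit sum over the fibre. -/
theorem correspondence_single (φ ψ : F →ₐ[K] F') (hφ : φ.toRingHom.IsIntegral)
    (hψ : ψ.toRingHom.IsIntegral) (u : Place K F) (n : ℤ) :
    Divisor.correspondence φ ψ hφ hψ (Finsupp.single u n) =
      ∑ W ∈ Place.fiberAlong φ hφ u,
        Finsupp.single (W.restrictAlong ψ hψ)
          (n * W.ramificationIndexAlong φ * W.inertiaDegAlong ψ hψ) := by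
  rw [Divisor.correspondence_apply, Divisor.pullbackAlong_single, map_sum]
  refine Finset.sum_congr rfl fun W _ => ?_
  rw [Divisor.pushforwardAlong_single]

/-- If all places of `F` have degree one, the correspondence `ψ_* φ^*` applied to a single place
has `ℓ¹`-norm at most the degree of `φ`. -/
theorem l1_correspondence_single_le (hdeg : ∀ v : Place K F, v.deg = 1)
    (φ ψ : F →ₐ[K] F') (hφ : φ.toRingHom.IsIntegral) (hψ : ψ.toRingHom.IsIntegral)
    (hFI : FundamentalIdentityAlong K φ hφ) (u : Place K F) :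
    l1 (Divisor.correspondence φ ψ hφ hψ (Finsupp.single u 1)) ≤ finrankAlong K φ := by
  classical
  have hE := correspondence_single φ ψ hφ hψ u 1
  -- the degree of the right-hand side
  have hdegE : Divisor.degree (Divisor.correspondence φ ψ hφ hψ (Finsupp.single u 1)) =
      (finrankAlong K φ : ℤ) := by
    rw [Divisor.degree_correspondence φ ψ hφ hψ hFI, Divisor.degree_single, hdeg u]
    simp
  have hsum : (∑ W ∈ Place.fiberAlong φ hφ u,
      ((W.ramificationIndexAlong φ * W.inertiaDegAlong ψ hψ : ℕ) : ℤ)) =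
        (finrankAlong K φ : ℤ) := by
    rw [← hdegE, hE, map_sum]
    refine Finset.sum_congr rfl fun W _ => ?_
    rw [Divisor.degree_single, hdeg]
    push_cast
    ring
  have hl1 : l1 (Divisor.correspondence φ ψ hφ hψ (Finsupp.single u 1)) ≤
      ∑ W ∈ Place.fiberAlong φ hφ u, W.ramificationIndexAlong φ * W.inertiaDegAlong ψ hψ := by
    rw [hE]
    refine (l1_sum_le _ _).trans (le_of_eq ?_)
    refine Finset.sum_congr rfl fun W _ => ?_
    rw [l1_single, one_mul, ← Nat.cast_mul, Int.natAbs_natCast]
  have hsum' : (∑ W ∈ Place.fiberAlong φ hφ u,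
      W.ramificationIndexAlong φ * W.inertiaDegAlong ψ hψ) = finrankAlong K φ := by
    exact_mod_cast hsum
  exact hl1.trans (le_of_eq hsum')

end Generic

/-- **(P4b)** `T_ℓ (u)` is an effective divisor of degree `[F̄_{Nℓ} : β F̄_N]`; in particular its
`ℓ¹`-norm is bounded independently of the place `u`. -/
theorem l1_heckeDivBar_single_le (N ℓ : ℕ) [NeZero N] [NeZero ℓ]
    (hα : HeckeAlphaBarIntegral Qb N ℓ) (hβ : HeckeBetaBarIntegral Qb N ℓ)
    [HasPrincipalDivisors Qb (laurentBaseChange Qb (modularFunctionFieldFull (N * ℓ)))]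
    (u : Place Qb (modularFunctionFieldBar N)) :
    l1 (heckeDivBar hα hβ (Finsupp.single u 1)) ≤
      finrankAlong Qb (heckeBetaBar Qb N ℓ) := by
  have : NeZero (N * ℓ) := ⟨mul_ne_zero (NeZero.ne N) (NeZero.ne ℓ)⟩
  have hF := Fermat.Agent.S37.HI.isFF1_modular N
  have hF' := Fermat.Agent.S37.HI.isFF1_modular (N * ℓ)
  exact l1_correspondence_single_le (fun v => Fermat.Agent.S24.place_deg_eq_one hF v)
    (heckeBetaBar Qb N ℓ) (heckeAlphaBar Qb N ℓ) hβ hα
    (Fermat.Agent.S37.HI.fundamentalIdentityAlong_of_isFF1 hF hF' _ hβ) u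

end

end Fermat.Agent.S37.P.HeckeBound
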