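/-
S37 Route P, block [Bdd] (sub-captain: helper31), leaf (R1a): Riemann–Roch spaces of a function
field in one variable over an algebraically closed field of characteristic zero —
constants, the one-point step, negative degree, linear equivalence.
`L(D) = AlgebraicCurve.riemannRochSpace D` is the frozen Prelude definition.
-/
import Mathlib
import Fermat.Prelude.Def_AlgebraicCurve_Repartitions
import Fermat.Agent.S24.Defs
import Fermat.Agent.S24.Residue
import Fermat.Agent.S24.Principal

set_option autoImplicit false

open AlgebraicCurve IntermediateField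

namespace Fermat.Agent.S37.P.RR

open Fermat.Agent.S24

variable {K F : Type*} [Field K] [Field F] [Algebra K F] [IsAlgClosed K] [CharZero K]

/-- A function without poles is constant. -/
theorem exists_eq_algebraMap_of_mem_zero (hF : IsFF1 K F) {f : F}
    (hf : f ∈ riemannRochSpace (0 : Divisor K F)) : ∃ a : K, f = algebraMap K F a := by
  by_contra hcon
  have hnr : f ∉ Set.range (algebraMap K F) := fun ⟨a, ha⟩ => hcon ⟨a, ha.symm⟩
  have ht : Transcendental K f := transcendental_of_notMem_range hnr
  have hf0 : f ≠ 0 := fun h => hnr ⟨0, by rw [h, map_zero]⟩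
  rw [mem_riemannRochSpace_iff] at hf
  have hempty : {v : Place K F | v.ord f < 0} = ∅ := by
    ext v
    simp only [Set.mem_ofPred_eq, Set.mem_empty_iff_false, iff_false, not_lt]
    rcases hf v with h | h
    · exact absurd h hf0
    · simpa using h
  have hsum := sum_ord_neg hF ht
  rw [hempty, finsum_mem_empty] at hsum
  haveI := finiteDimensional_adjoin_simple hF ht
  have hpos : 0 < Module.finrank K⟮f⟯ F := Module.finrank_pos
  omega

omit [IsAlgClosed K] [CharZero K] in
/-- An effective divisor has nonnegative degree. -/
theorem rrStep_degree_nonneg {E : Divisor K F} (hE : ∀ v, 0 ≤ E v) : 0 ≤ Divisor.degree E := by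
  show 0 ≤ (Finsupp.liftAddHom fun v : Place K F => AddMonoidHom.mulRight (v.deg : ℤ)) E
  rw [Finsupp.liftAddHom_apply, Finsupp.sum]
  exact Finset.sum_nonneg fun v _ => by
    rw [AddMonoidHom.mulRight_apply]
    exact mul_nonneg (hE v) (Int.natCast_nonneg _)

/-- The key to the one-point step: modulo `L(D)`, every element of `L(D + P)` is a multiple of
any given element outside `L(D)`. -/
theorem rrStep_exists_sub_smul_mem (hF : IsFF1 K F) (D : Divisor K F) (P : Place K F) {f g : F}
    (hf : f ∈ riemannRochSpace (D + Finsupp.single P 1))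
    (hg : g ∈ riemannRochSpace (D + Finsupp.single P 1)) (hgD : g ∉ riemannRochSpace D) :
    ∃ c : K, f - c • g ∈ riemannRochSpace D := by
  classical
  have hg0 : g ≠ 0 := fun h => hgD (h ▸ Submodule.zero_mem _)
  have hDP : ∀ v, v ≠ P → (D + Finsupp.single P 1 : Divisor K F) v = D v := by
    intro v hv
    rw [Finsupp.add_apply, Finsupp.single_apply, if_neg (Ne.symm hv), add_zero]
  have hDPP : (D + Finsupp.single P 1 : Divisor K F) P = D P + 1 := by
    rw [Finsupp.add_apply, Finsupp.single_eq_same]
  have hg' := mem_riemannRochSpace_iff.mp hg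
  have hgP : P.ord g = -D P - 1 := by
    have h1 : -(D P + 1) ≤ P.ord g := by
      rcases hg' P with h | h
      · exact absurd h hg0
      · rwa [hDPP] at h
    have h2 : ¬ (-D P ≤ P.ord g) := by
      intro h2
      apply hgD
      rw [mem_riemannRochSpace_iff]
      intro v
      by_cases hv : v = P
      · subst hv
        exact Or.inr h2
      · rcases hg' v with h | h
        · exact Or.inl h
        · rw [hDP v hv] at h
          exact Or.inr h
    omega
  by_cases hf0 : f = 0
  · exact ⟨0, by simp [hf0]⟩
  have hf' := mem_riemannRochSpace_iff.mp hf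
  have hfP : -(D P + 1) ≤ P.ord f := by
    rcases hf' P with h | h
    · exact absurd h hf0
    · rwa [hDPP] at h
  have hb : 0 ≤ P.ord (f / g) := by
    rw [ord_div P hf0 hg0]
    omega
  obtain ⟨a, ha⟩ := exists_residue hF P hb
  refine ⟨a, ?_⟩
  have hsub : f - a • g ∈ riemannRochSpace (D + Finsupp.single P 1) :=
    Submodule.sub_mem _ hf (Submodule.smul_mem _ a hg)
  have hsub' := mem_riemannRochSpace_iff.mp hsub
  rw [mem_riemannRochSpace_iff]
  intro v
  by_cases hv : v = P
  · subst hv
    by_cases h0 : f - a • g = 0
    · exact Or.inl h0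
    · right
      have heq : f - a • g = (f / g - algebraMap K F a) * g := by
        rw [Algebra.smul_def]
        field_simp
      rcases ha with ha | ha
      · exfalso
        apply h0
        rw [heq, ha, sub_self, zero_mul]
      · have hne : f / g - algebraMap K F a ≠ 0 := by
          intro h
          apply h0
          rw [heq, h, zero_mul]
        rw [heq, v.ord_mul hne hg0, hgP]
        omega
  · rcases hsub' v with h | h
    · exact Or.inl h
    · rw [hDP v hv] at h
      exact Or.inr h

/-- One-point step: `L(D + P) / L(D)` has dimension at most one. -/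
theorem exists_functional_step (hF : IsFF1 K F) (D : Divisor K F) (P : Place K F) :
    ∃ φ : ↥(riemannRochSpace (D + Finsupp.single P 1)) →ₗ[K] K,
      ∀ f, φ f = 0 → (f : F) ∈ riemannRochSpace D := by
  classical
  by_cases hall : ∀ g : ↥(riemannRochSpace (D + Finsupp.single P 1)),
      (g : F) ∈ riemannRochSpace D
  · exact ⟨0, fun f _ => hall f⟩
  · obtain ⟨g, hg⟩ := not_forall.mp hall
    have hgU : g ∉ (riemannRochSpace D).comap
        (riemannRochSpace (D + Finsupp.single P 1)).subtype := hg
    obtain ⟨φ, hφg, hφU⟩ := Submodule.exists_dual_map_eq_bot_of_notMem hgU inferInstance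
    refine ⟨φ, fun f hf => ?_⟩
    obtain ⟨c, hc⟩ := rrStep_exists_sub_smul_mem hF D P f.2 g.2 hg
    have hmem : f - c • g ∈ (riemannRochSpace D).comap
        (riemannRochSpace (D + Finsupp.single P 1)).subtype := hc
    have h1 : φ (f - c • g) = 0 := by
      have h2 : φ (f - c • g) ∈ ((riemannRochSpace D).comap
          (riemannRochSpace (D + Finsupp.single P 1)).subtype).map φ :=
        Submodule.mem_map_of_mem hmem
      rw [hφU] at h2
      exact (Submodule.mem_bot K).mp h2
    rw [map_sub, map_smul, hf, zero_sub, neg_eq_zero, smul_eq_mul, mul_eq_zero] at h1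
    rcases h1 with h1 | h1
    · rw [h1, zero_smul, sub_zero] at hc
      exact hc
    · exact absurd h1 hφg

/-- `L(D) = 0` when `deg D < 0`. -/
theorem eq_zero_of_mem_of_degree_neg (hF : IsFF1 K F) {D : Divisor K F}
    (hD : Divisor.degree D < 0) {f : F} (hf : f ∈ riemannRochSpace D) : f = 0 := by
  by_contra hf0
  rw [mem_riemannRochSpace_iff] at hf
  have hE : Divisor.degree
      (Finsupp.ofSupportFinite (fun v : Place K F => v.ord f) (finite_ord_ne_zero hF hf0)) = 0 :=
    degree_eq_zero_of_principal hF hf0 _ (fun v => rfl)
  have hnn : 0 ≤ Divisor.degree (D +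
      Finsupp.ofSupportFinite (fun v : Place K F => v.ord f) (finite_ord_ne_zero hF hf0)) :=
    rrStep_degree_nonneg (fun v => by
      rw [Finsupp.add_apply]
      show 0 ≤ D v + v.ord f
      rcases hf v with h | h
      · exact absurd h hf0
      · linarith)
  rw [map_add, hE, add_zero] at hnn
  exact absurd hD (not_lt.mpr hnn)

/-- Linearly equivalent divisors have Riemann–Roch spaces of the same dimension. -/
theorem finrank_eq_of_sub_principal (hF : IsFF1 K F) {D D' : Divisor K F} {z : F} (hz : z ≠ 0)
    (h : ∀ v : Place K F, D' v = D v + v.ord z) :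
    Module.finrank K ↥(riemannRochSpace D') = Module.finrank K ↥(riemannRochSpace D) := by
  have key : ∀ f : F, f ∈ riemannRochSpace D' ↔ f * z ∈ riemannRochSpace D := by
    intro f
    rw [mem_riemannRochSpace_iff, mem_riemannRochSpace_iff]
    refine forall_congr' fun v => ?_
    by_cases hf : f = 0
    · simp [hf]
    · rw [v.ord_mul hf hz, h v]
      constructor
      · rintro (h1 | h1)
        · exact absurd h1 hf
        · right
          linarith
      · rintro (h1 | h1)
        · exact absurd h1 (mul_ne_zero hf hz)
        · right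
          linarith
  let e : ↥(riemannRochSpace D') ≃ₗ[K] ↥(riemannRochSpace D) :=
    { toFun := fun f => ⟨(f : F) * z, (key f).mp f.2⟩
      invFun := fun g => ⟨(g : F) * z⁻¹, (key _).mpr (by
        rw [inv_mul_cancel_right₀ hz]
        exact g.2)⟩
      map_add' := fun f g => Subtype.ext (by simp [add_mul])
      map_smul' := fun c f => Subtype.ext (by simp)
      left_inv := fun f => Subtype.ext (by simp [hz])
      right_inv := fun g => Subtype.ext (by simp [hz]) }
  exact e.finrank_eq

end Fermat.Agent.S37.P.RR
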