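/-
S37 Route P, block [Bdd] (sub-captain: helper31), leaf (R1b): Riemann–Roch spaces —
the effective step, finite-dimensionality, `ℓ(D + E) ≤ ℓ(D) + deg E`.
-/
import Mathlib
import Fermat.Prelude.Def_AlgebraicCurve_Repartitions
import Fermat.Agent.S24.Defs
import Fermat.Agent.S24.Residue
import Fermat.Agent.S24.Principal
import Fermat.Agent.S37.P.RRStep

set_option autoImplicit false

open AlgebraicCurve

namespace Fermat.Agent.S37.P.RR

open Fermat.Agent.S24

variable {K F : Type*} [Field K] [Field F] [Algebra K F] [IsAlgClosed K] [CharZero K]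

omit [IsAlgClosed K] [CharZero K] in
/-- `L(D)` is monotone in `D`. -/
theorem RRSpace_riemannRochSpace_mono {D D' : Divisor K F} (h : D ≤ D') :
    riemannRochSpace D ≤ riemannRochSpace D' := by
  intro f hf
  rw [mem_riemannRochSpace_iff] at hf ⊢
  intro v
  rcases hf v with h0 | hv
  · exact Or.inl h0
  · refine Or.inr ?_
    have hle : D v ≤ D' v := Finsupp.le_def.mp h v
    omega

/-- Over an algebraically closed constant field all places have degree one, so the degree of a
divisor is the sum of its coefficients. -/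
theorem RRSpace_degree_eq_sum (hF : IsFF1 K F) (G : Divisor K F) :
    Divisor.degree G = ∑ v ∈ G.support, G v := by
  show (Finsupp.liftAddHom fun v : Place K F => AddMonoidHom.mulRight (v.deg : ℤ)) G = _
  rw [Finsupp.liftAddHom_apply, Finsupp.sum]
  refine Finset.sum_congr rfl fun v _ => ?_
  rw [AddMonoidHom.mulRight_apply, place_deg_eq_one hF v, Nat.cast_one, mul_one]

/-- The degree of a single place with multiplicity. -/
theorem RRSpace_degree_single (hF : IsFF1 K F) (P : Place K F) (n : ℤ) :
    Divisor.degree (Finsupp.single P n) = n := by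
  rw [Divisor.degree_single, place_deg_eq_one hF P, Nat.cast_one, mul_one]

/-- An effective divisor has nonnegative degree. -/
theorem RRSpace_degree_nonneg (hF : IsFF1 K F) {G : Divisor K F} (hG : 0 ≤ G) :
    0 ≤ Divisor.degree G := by
  rw [RRSpace_degree_eq_sum hF]
  exact Finset.sum_nonneg fun v _ => Finsupp.le_def.mp hG v

/-- An effective divisor of degree zero is zero. -/
theorem RRSpace_eq_zero_of_degree_eq_zero (hF : IsFF1 K F) {G : Divisor K F} (hG : 0 ≤ G)
    (hdeg : Divisor.degree G = 0) : G = 0 := by
  rw [RRSpace_degree_eq_sum hF] at hdeg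
  have hnn : ∀ v ∈ G.support, 0 ≤ G v := fun v _ => Finsupp.le_def.mp hG v
  have hzero := (Finset.sum_eq_zero_iff_of_nonneg hnn).mp hdeg
  ext v
  by_cases hv : v ∈ G.support
  · simpa using hzero v hv
  · simpa using Finsupp.notMem_support_iff.mp hv

/-- The one-point step of `RRStep`, with the larger divisor as a free variable. -/
theorem RRSpace_exists_functional_step (hF : IsFF1 K F) (D₁ D₂ : Divisor K F) (P : Place K F)
    (h : D₂ = D₁ + Finsupp.single P 1) :
    ∃ φ : ↥(riemannRochSpace D₂) →ₗ[K] K,
      ∀ f, φ f = 0 → (f : F) ∈ riemannRochSpace D₁ := by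
  subst h
  exact exists_functional_step hF D₁ P

/-- The effective step, in the form `D ≤ D'`: there is a linear map from `L(D')` to
`K ^ deg (D' - D)` whose kernel is contained in `L(D)`. -/
theorem RRSpace_exists_linearMap_of_le (hF : IsFF1 K F) :
    ∀ (n : ℕ) (D D' : Divisor K F), D ≤ D' → Divisor.degree (D' - D) = n →
      ∃ Φ : ↥(riemannRochSpace D') →ₗ[K] (Fin n → K),
        ∀ f, Φ f = 0 → (f : F) ∈ riemannRochSpace D := by
  intro n
  induction n with
  | zero =>
    intro D D' hle hdeg
    have hG : (0 : Divisor K F) ≤ D' - D := sub_nonneg.mpr hle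
    have hzero : D' - D = 0 := RRSpace_eq_zero_of_degree_eq_zero hF hG (by simpa using hdeg)
    have hD : D' = D := sub_eq_zero.mp hzero
    subst hD
    exact ⟨0, fun f _ => f.2⟩
  | succ n ih =>
    intro D D' hle hdeg
    -- a place where `D < D'`
    obtain ⟨P, hP⟩ : ∃ P : Place K F, D P < D' P := by
      by_contra hcon
      have hcon' : ∀ v : Place K F, D' v ≤ D v := fun v =>
        not_lt.mp fun hlt => hcon ⟨v, hlt⟩
      have hD : D' = D := by
        ext v
        exact le_antisymm (hcon' v) (Finsupp.le_def.mp hle v)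
      rw [hD, sub_self, map_zero] at hdeg
      have : (0 : ℤ) = ((n + 1 : ℕ) : ℤ) := hdeg
      omega
    set D₁ : Divisor K F := D' - Finsupp.single P 1 with hD₁
    have hle₁ : D ≤ D₁ := by
      rw [Finsupp.le_def]
      intro v
      rw [hD₁, Finsupp.sub_apply]
      by_cases hv : v = P
      · subst hv
        rw [Finsupp.single_eq_same]
        omega
      · rw [Finsupp.single_eq_of_ne hv, sub_zero]
        exact Finsupp.le_def.mp hle v
    have hdeg₁ : Divisor.degree (D₁ - D) = (n : ℕ) := by
      have h1 : D₁ - D = (D' - D) - Finsupp.single P 1 := by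
        rw [hD₁]
        abel
      rw [h1, map_sub, hdeg, RRSpace_degree_single hF]
      push_cast
      ring
    have hD' : D' = D₁ + Finsupp.single P 1 := by
      rw [hD₁, sub_add_cancel]
    obtain ⟨Φ₁, hΦ₁⟩ := ih D D₁ hle₁ hdeg₁
    obtain ⟨φ, hφ⟩ := RRSpace_exists_functional_step hF D₁ D' P hD'
    -- extend `Φ₁` from `L(D₁)` to `L(D')`
    let p : Submodule K ↥(riemannRochSpace D') :=
      (riemannRochSpace D₁).comap (riemannRochSpace D').subtype
    let g : ↥p →ₗ[K] (Fin n → K) :=
      Φ₁.comp (LinearMap.codRestrict (riemannRochSpace D₁)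
        ((riemannRochSpace D').subtype.comp p.subtype) (fun x => x.2))
    obtain ⟨Ψ, hΨ⟩ := LinearMap.exists_extend g
    refine ⟨LinearMap.pi (Fin.cons φ (fun i => (LinearMap.proj i).comp Ψ)), fun f hf => ?_⟩
    have h0 : φ f = 0 := by
      have := congrFun hf 0
      simpa using this
    have hs : Ψ f = 0 := by
      funext i
      have := congrFun hf i.succ
      simpa using this
    have hf₁ : (f : F) ∈ riemannRochSpace D₁ := hφ f h0
    have hfp : f ∈ p := hf₁
    have hg : g ⟨f, hfp⟩ = 0 := by
      have := LinearMap.congr_fun hΨ ⟨f, hfp⟩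
      rw [← this]
      exact hs
    exact hΦ₁ ⟨(f : F), hf₁⟩ hg

/-- Effective step: `L(D + E) / L(D)` has dimension at most `deg E` for `E ≥ 0`. -/
theorem exists_linearMap_effective (hF : IsFF1 K F) (D E : Divisor K F) (hE : 0 ≤ E) :
    ∃ Φ : ↥(riemannRochSpace (D + E)) →ₗ[K] (Fin (Divisor.degree E).toNat → K),
      ∀ f, Φ f = 0 → (f : F) ∈ riemannRochSpace D := by
  refine RRSpace_exists_linearMap_of_le hF (Divisor.degree E).toNat D (D + E)
    (le_add_of_nonneg_right hE) ?_
  rw [add_sub_cancel_left]
  exact (Int.toNat_of_nonneg (RRSpace_degree_nonneg hF hE)).symm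

/-- `L(D)` is finite-dimensional. -/
theorem finiteDimensional_riemannRochSpace (hF : IsFF1 K F) (D : Divisor K F) :
    FiniteDimensional K ↥(riemannRochSpace D) := by
  classical
  -- the positive part of `D`
  set E : Divisor K F := D ⊔ 0 with hE
  have hE0 : (0 : Divisor K F) ≤ E := le_sup_right
  have hDE : D ≤ E := le_sup_left
  obtain ⟨Φ, hΦ⟩ := RRSpace_exists_linearMap_of_le hF (Divisor.degree (E - 0)).toNat 0 E hE0
    (by
      rw [sub_zero]
      exact (Int.toNat_of_nonneg (RRSpace_degree_nonneg hF hE0)).symm)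
  -- `L(E)` is finite-dimensional: the kernel of `Φ` consists of constants
  have hfinE : Module.Finite K ↥(riemannRochSpace E) := by
    have hker : Module.Finite K ↥(LinearMap.ker Φ) := by
      let ι : ↥(LinearMap.ker Φ) →ₗ[K] ↥(LinearMap.range (Algebra.linearMap K F)) :=
        LinearMap.codRestrict _ ((riemannRochSpace E).subtype.comp (LinearMap.ker Φ).subtype)
          (fun f => by
            obtain ⟨a, ha⟩ := exists_eq_algebraMap_of_mem_zero hF (hΦ f.1 f.2)
            exact ⟨a, ha.symm⟩)
      have hι : Function.Injective ι := by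
        intro f g h
        apply Subtype.ext
        apply Subtype.ext
        exact congrArg (fun x : ↥(LinearMap.range (Algebra.linearMap K F)) => (x : F)) h
      exact Module.Finite.of_injective ι hι
    have hquot : Module.Finite K (↥(riemannRochSpace E) ⧸ LinearMap.ker Φ) :=
      Module.Finite.equiv Φ.quotKerEquivRange.symm
    exact Module.Finite.of_submodule_quotient (LinearMap.ker Φ)
  -- `L(D) ⊆ L(E)`
  exact Module.Finite.of_injective
    (Submodule.inclusion (RRSpace_riemannRochSpace_mono hDE))
    (Submodule.inclusion_injective _)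

/-- `ℓ(D + E) ≤ ℓ(D) + deg E` for `E ≥ 0`. -/
theorem finrank_add_le (hF : IsFF1 K F) (D E : Divisor K F) (hE : 0 ≤ E) :
    Module.finrank K ↥(riemannRochSpace (D + E)) ≤
      Module.finrank K ↥(riemannRochSpace D) + (Divisor.degree E).toNat := by
  obtain ⟨Φ, hΦ⟩ := exists_linearMap_effective hF D E hE
  have hfin₁ := finiteDimensional_riemannRochSpace hF (D + E)
  have hfin₂ := finiteDimensional_riemannRochSpace hF D
  have h1 := LinearMap.finrank_range_add_finrank_ker Φ
  have h2 : Module.finrank K ↥(LinearMap.range Φ) ≤ (Divisor.degree E).toNat := by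
    calc Module.finrank K ↥(LinearMap.range Φ)
        ≤ Module.finrank K (Fin (Divisor.degree E).toNat → K) := Submodule.finrank_le _
      _ = (Divisor.degree E).toNat := Module.finrank_fin_fun K
  have h3 : Module.finrank K ↥(LinearMap.ker Φ) ≤ Module.finrank K ↥(riemannRochSpace D) := by
    let ι : ↥(LinearMap.ker Φ) →ₗ[K] ↥(riemannRochSpace D) :=
      LinearMap.codRestrict _ ((riemannRochSpace (D + E)).subtype.comp (LinearMap.ker Φ).subtype)
        (fun f => hΦ f.1 f.2)
    have hι : Function.Injective ι := by
      intro f g h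
      apply Subtype.ext
      apply Subtype.ext
      exact congrArg (fun x : ↥(riemannRochSpace D) => (x : F)) h
    exact LinearMap.finrank_le_finrank_of_injective hι
  omega

end Fermat.Agent.S37.P.RR
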