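/-
S37 Route P, block [Bdd] (sub-captain: helper31), leaf (R2): the lower bound
`ℓ(l·B) ≥ (l + 1)·n − c` for the pole divisor `B` of a transcendental `x`, `n = [F : K(x)]`.
-/
import Mathlib
import Fermat.Prelude.Def_AlgebraicCurve_Repartitions
import Fermat.Agent.S24.Defs
import Fermat.Agent.S24.Residue
import Fermat.Agent.S24.Principal
import Fermat.Agent.S37.P.RRSpace

set_option autoImplicit false

open AlgebraicCurve

namespace Fermat.Agent.S37.P.RR

open Fermat.Agent.S24

variable {K F : Type*} [Field K] [Field F] [Algebra K F] [IsAlgClosed K] [CharZero K]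

/-! ### Pole divisors -/

/-- The set of poles of any element is finite. -/
theorem RRLower_finite_support_pole (hF : IsFF1 K F) (f : F) :
    (Function.support fun v : Place K F => max 0 (-(v.ord f))).Finite := by
  rcases eq_or_ne f 0 with rfl | hf
  · have : (Function.support fun v : Place K F => max 0 (-(v.ord (0 : F)))) = ∅ := by
      ext v
      simp
    rw [this]
    exact Set.finite_empty
  · refine (finite_ord_ne_zero hF hf).subset ?_
    intro v hv
    rw [Function.mem_support] at hv
    show v.ord f ≠ 0
    intro h0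
    apply hv
    rw [h0]
    simp

/-- The pole divisor `v ↦ max 0 (-ord_v f)` of an element `f`. -/
noncomputable def RRLower_poleDiv (hF : IsFF1 K F) (f : F) : Divisor K F :=
  Finsupp.ofSupportFinite (fun v : Place K F => max 0 (-(v.ord f)))
    (RRLower_finite_support_pole hF f)

theorem RRLower_poleDiv_apply (hF : IsFF1 K F) (f : F) (v : Place K F) :
    RRLower_poleDiv hF f v = max 0 (-(v.ord f)) := rfl

theorem RRLower_poleDiv_nonneg (hF : IsFF1 K F) (f : F) : 0 ≤ RRLower_poleDiv hF f := by
  intro v
  rw [RRLower_poleDiv_apply]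
  exact le_max_left _ _

/-- The degree of a divisor is the sum of its coefficients (all places have degree one). -/
theorem RRLower_degree_eq_sum (hF : IsFF1 K F) (D : Divisor K F) :
    Divisor.degree D = ∑ v ∈ D.support, D v := by
  show (Finsupp.liftAddHom fun v : Place K F => AddMonoidHom.mulRight (v.deg : ℤ)) D = _
  rw [Finsupp.liftAddHom_apply, Finsupp.sum]
  refine Finset.sum_congr rfl fun v _ => ?_
  rw [AddMonoidHom.mulRight_apply, place_deg_eq_one hF v, Nat.cast_one, mul_one]

/-- The pole divisor of a transcendental element `x` has degree `[F : K(x)]`. -/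
theorem RRLower_degree_poleDiv (hF : IsFF1 K F) {x : F} (hx : Transcendental K x) :
    Divisor.degree (RRLower_poleDiv hF x) = (Module.finrank (IntermediateField.adjoin K {x}) F : ℤ) := by
  have hsupp : ((RRLower_poleDiv hF x).support : Set (Place K F))
      = {v : Place K F | v.ord x < 0} := by
    ext v
    simp only [Finset.mem_coe, Finsupp.mem_support_iff, Set.mem_ofPred_eq, RRLower_poleDiv_apply]
    constructor
    · intro h
      by_contra hge
      exact h (max_eq_left (by omega))
    · intro h hmax
      have := le_max_right 0 (-(v.ord x))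
      omega
  rw [RRLower_degree_eq_sum hF, ← finsum_mem_coe_finset, hsupp]
  have h1 : ∑ᶠ v ∈ {v : Place K F | v.ord x < 0}, (RRLower_poleDiv hF x) v
      = ∑ᶠ v ∈ {v : Place K F | v.ord x < 0}, -(v.ord x) := by
    refine finsum_mem_congr rfl fun v hv => ?_
    have hv' : v.ord x < 0 := hv
    rw [RRLower_poleDiv_apply]
    exact max_eq_right (by omega)
  rw [h1, finsum_mem_neg_distrib (f := fun v : Place K F => v.ord x) (finite_ord_neg hF hx),
    sum_ord_neg hF hx, neg_neg]

/-! ### Linear independence -/

omit [IsAlgClosed K] [CharZero K] in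
/-- The powers of a transcendental element are linearly independent. -/
theorem RRLower_linearIndependent_pow {x : F} (hx : Transcendental K x) :
    LinearIndependent K (fun i : ℕ => x ^ i) := by
  have h1 : LinearIndependent K (fun i : ℕ => (Polynomial.monomial i (1 : K))) := by
    have := (Polynomial.basisMonomials K).linearIndependent
    rwa [Polynomial.coe_basisMonomials] at this
  have h2 := h1.map' (Polynomial.aeval x).toLinearMap
    (LinearMap.ker_eq_bot.mpr (transcendental_iff_injective.mp hx))
  have h3 : ((Polynomial.aeval x).toLinearMap ∘ fun i : ℕ => (Polynomial.monomial i (1 : K)))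
      = fun i : ℕ => x ^ i := by
    funext i
    simp
  rwa [h3] at h2

/-! ### The lower bound -/

/-- Membership of `x ^ i * u` in `L(l • B + C)` when `B` is the pole divisor of `x`, `i ≤ l` and
`C` dominates the pole divisor of `u`. -/
theorem RRLower_pow_mul_mem (hF : IsFF1 K F) {x u : F} (hx : x ≠ 0) (hu : u ≠ 0)
    (C : Divisor K F) (hC : RRLower_poleDiv hF u ≤ C) {i l : ℕ} (hil : i ≤ l) :
    x ^ i * u ∈ riemannRochSpace (l • RRLower_poleDiv hF x + C) := by
  rw [mem_riemannRochSpace_iff]
  intro v
  right
  have hxi : x ^ i ≠ 0 := pow_ne_zero i hx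
  have hord : v.ord (x ^ i * u) = (i : ℤ) * v.ord x + v.ord u := by
    rw [v.ord_mul hxi hu, ← zpow_natCast, v.ord_zpow]
  have hB0 : (0 : ℤ) ≤ RRLower_poleDiv hF x v := by
    rw [RRLower_poleDiv_apply]
    exact le_max_left _ _
  have hB1 : -(v.ord x) ≤ RRLower_poleDiv hF x v := by
    rw [RRLower_poleDiv_apply]
    exact le_max_right _ _
  have hC1 : -(v.ord u) ≤ C v := by
    have h1 : -(v.ord u) ≤ RRLower_poleDiv hF u v := by
      rw [RRLower_poleDiv_apply]
      exact le_max_right _ _
    exact h1.trans (hC v)
  have hD : (l • RRLower_poleDiv hF x + C) v = (l : ℤ) * RRLower_poleDiv hF x v + C v := by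
    rw [Finsupp.add_apply, Finsupp.smul_apply, nsmul_eq_mul]
  rw [hord, hD]
  have h1 : (i : ℤ) * -(v.ord x) ≤ (i : ℤ) * RRLower_poleDiv hF x v :=
    mul_le_mul_of_nonneg_left hB1 (Int.natCast_nonneg i)
  have h2 : (i : ℤ) * RRLower_poleDiv hF x v ≤ (l : ℤ) * RRLower_poleDiv hF x v :=
    mul_le_mul_of_nonneg_right (by exact_mod_cast hil) hB0
  have h3 : (i : ℤ) * -(v.ord x) = -((i : ℤ) * v.ord x) := by ring
  omega

/-- There are an effective divisor `B` of positive degree `n` and a constant `c` with
`(l + 1) · n ≤ ℓ(l · B) + c` for all `l`. -/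
theorem exists_lower_bound (hF : IsFF1 K F) :
    ∃ (B : Divisor K F) (n c : ℕ), 0 ≤ B ∧ 0 < n ∧ Divisor.degree B = n ∧
      ∀ l : ℕ, (l + 1) * n ≤ Module.finrank K ↥(riemannRochSpace (l • B)) + c := by
  classical
  obtain ⟨x, hx, hfin⟩ := id hF
  have hx0 : x ≠ 0 := fun h => hx (h ▸ isAlgebraic_zero)
  -- a basis of `F` over `K(x)`
  let u := Module.finBasis (IntermediateField.adjoin K {x}) F
  -- the sum of the pole divisors of the basis elements
  set C : Divisor K F := ∑ j, RRLower_poleDiv hF (u j) with hCdef
  have hC0 : 0 ≤ C := Finset.sum_nonneg fun j _ => RRLower_poleDiv_nonneg hF (u j)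
  have hCj : ∀ j, RRLower_poleDiv hF (u j) ≤ C := fun j =>
    Finset.single_le_sum (f := fun j => RRLower_poleDiv hF (u j))
      (fun k _ => RRLower_poleDiv_nonneg hF (u k)) (Finset.mem_univ j)
  refine ⟨RRLower_poleDiv hF x, Module.finrank (IntermediateField.adjoin K {x}) F,
    (Divisor.degree C).toNat, RRLower_poleDiv_nonneg hF x, Module.finrank_pos,
    RRLower_degree_poleDiv hF hx, fun l => ?_⟩
  -- the family `x ^ i * u j` lies in `L(l • B + C)`
  have hmem : ∀ p : Fin (l + 1) × Fin (Module.finrank (IntermediateField.adjoin K {x}) F),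
      x ^ (p.1 : ℕ) * u p.2 ∈ riemannRochSpace (l • RRLower_poleDiv hF x + C) := fun p =>
    RRLower_pow_mul_mem hF hx0 (u.ne_zero p.2) C (hCj p.2) (Nat.lt_succ_iff.mp p.1.2)
  -- and is linearly independent over `K`
  have hgen : LinearIndependent K
      (fun i : Fin (l + 1) => (IntermediateField.AdjoinSimple.gen K x) ^ (i : ℕ)) := by
    have h0 : LinearIndependent K (fun i : Fin (l + 1) => x ^ (i : ℕ)) :=
      (RRLower_linearIndependent_pow hx).comp (fun i : Fin (l + 1) => (i : ℕ)) Fin.val_injective
    refine LinearIndependent.of_comp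
      (IsScalarTower.toAlgHom K (IntermediateField.adjoin K {x}) F).toLinearMap ?_
    have h1 : ((IsScalarTower.toAlgHom K (IntermediateField.adjoin K {x}) F).toLinearMap ∘
        fun i : Fin (l + 1) => (IntermediateField.AdjoinSimple.gen K x) ^ (i : ℕ))
        = fun i : Fin (l + 1) => x ^ (i : ℕ) := by
      funext i
      simp
    rw [h1]
    exact h0
  have hli0 := linearIndependent_smul hgen u.linearIndependent
  have hli : LinearIndependent K
      (fun p : Fin (l + 1) × Fin (Module.finrank (IntermediateField.adjoin K {x}) F) =>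
        x ^ (p.1 : ℕ) * u p.2) := by
    have h2 : (fun p : Fin (l + 1) × Fin (Module.finrank (IntermediateField.adjoin K {x}) F) =>
        (IntermediateField.AdjoinSimple.gen K x) ^ (p.1 : ℕ) • u p.2)
        = fun p => x ^ (p.1 : ℕ) * u p.2 := by
      funext p
      rw [Algebra.smul_def, map_pow, IntermediateField.AdjoinSimple.algebraMap_gen]
    rw [← h2]
    exact hli0
  have hli' : LinearIndependent K
      (fun p : Fin (l + 1) × Fin (Module.finrank (IntermediateField.adjoin K {x}) F) =>
        (⟨x ^ (p.1 : ℕ) * u p.2, hmem p⟩ : riemannRochSpace (l • RRLower_poleDiv hF x + C))) :=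
    LinearIndependent.of_comp (riemannRochSpace (l • RRLower_poleDiv hF x + C)).subtype hli
  have hfd := finiteDimensional_riemannRochSpace hF (l • RRLower_poleDiv hF x + C)
  have hcard := hli'.fintype_card_le_finrank
  rw [Fintype.card_prod, Fintype.card_fin, Fintype.card_fin] at hcard
  exact hcard.trans (finrank_add_le hF (l • RRLower_poleDiv hF x) C hC0)

end Fermat.Agent.S37.P.RR
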