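/-
S37 Route P, block [Bdd] (sub-captain: helper31), leaf (R3) (helper40): Riemann's inequality and
the bounded-representative property of degree-zero divisor classes.

Proof (Stichtenoth 1.4.14): with `B`, `n = deg B`, `c` from `exists_lower_bound` put
`γ := c - n`.  (A) Every `D₁ ≤ l • B` satisfies `deg D₁ - γ ≤ ℓ(D₁)` (monotonicity
`finrank_add_le`).  (B) For an effective `P` and `l` large, `ℓ(l • B - P) > 0`, so there is
`z ≠ 0` with `D₁ := P - div z ≤ l • B`; `ℓ(P) = ℓ(D₁)`, `deg P = deg D₁`.  (C) For arbitrary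
`A ≤ P := A ⊔ 0` use monotonicity again.
[Bdd]: for `deg D = 0` and `E₀ := g • P₀`, `g := γ⁺ + 1`, `ℓ(D + E₀) ≥ 1`, so
`D + div z = D'' - E₀` with `D'' ≥ 0` of degree `g`; hence `ℓ¹`-norm `≤ 2 g`.
-/
import Mathlib
import Fermat.Prelude.Def_AlgebraicCurve_Repartitions
import Fermat.Agent.S24.Defs
import Fermat.Agent.S24.Residue
import Fermat.Agent.S24.Principal
import Fermat.Agent.S37.P.BddKill
import Fermat.Agent.S37.P.RRSpace
import Fermat.Agent.S37.P.RRLower

set_option autoImplicit false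

open AlgebraicCurve

namespace Fermat.Agent.S37.P.RR

open Fermat.Agent.S24

variable {K F : Type*} [Field K] [Field F] [Algebra K F] [IsAlgClosed K] [CharZero K]

/-- Over an algebraically closed constant field the degree is the sum of the coefficients. -/
theorem r3_degree_eq_sum (hF : IsFF1 K F) (D : Divisor K F) :
    Divisor.degree D = ∑ v ∈ D.support, D v := by
  show (Finsupp.liftAddHom fun v : Place K F => AddMonoidHom.mulRight (v.deg : ℤ)) D = _
  rw [Finsupp.liftAddHom_apply, Finsupp.sum]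
  refine Finset.sum_congr rfl fun v _ => ?_
  rw [AddMonoidHom.mulRight_apply, place_deg_eq_one hF v, Nat.cast_one, mul_one]

/-- An effective divisor has nonnegative degree. -/
theorem r3_degree_nonneg (hF : IsFF1 K F) {D : Divisor K F} (hD : 0 ≤ D) :
    0 ≤ Divisor.degree D := by
  rw [r3_degree_eq_sum hF]
  exact Finset.sum_nonneg fun v _ => by simpa using Finsupp.le_def.mp hD v

/-- For an effective divisor the `ℓ¹`-norm is the degree. -/
theorem r3_l1_eq_degree (hF : IsFF1 K F) {D : Divisor K F} (hD : 0 ≤ D) :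
    ((BddKill.l1 D : ℕ) : ℤ) = Divisor.degree D := by
  rw [r3_degree_eq_sum hF, BddKill.l1_eq_sum_support]
  push_cast
  refine Finset.sum_congr rfl fun v _ => ?_
  have h0 := Finsupp.le_def.mp hD v
  rw [Finsupp.zero_apply] at h0
  exact abs_of_nonneg h0

/-- The divisor of a nonzero function. -/
noncomputable def r3Div (hF : IsFF1 K F) (z : F) (hz : z ≠ 0) : Divisor K F :=
  Finsupp.ofSupportFinite (fun v => v.ord z) (finite_ord_ne_zero hF hz)

theorem r3Div_apply (hF : IsFF1 K F) (z : F) (hz : z ≠ 0) (v : Place K F) :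
    r3Div hF z hz v = v.ord z := rfl

theorem r3_degree_div (hF : IsFF1 K F) (z : F) (hz : z ≠ 0) :
    Divisor.degree (r3Div hF z hz) = 0 :=
  degree_eq_zero_of_principal hF hz _ (fun v => r3Div_apply hF z hz v)

omit [IsAlgClosed K] [CharZero K] in
/-- A Riemann–Roch space of positive dimension contains a nonzero function. -/
theorem r3_exists_ne_zero {D : Divisor K F}
    (hpos : 0 < Module.finrank K ↥(riemannRochSpace D)) :
    ∃ z : F, z ≠ 0 ∧ z ∈ riemannRochSpace D := by
  by_contra hcon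
  have hsub : Subsingleton ↥(riemannRochSpace D) := ⟨fun a b => by
    have ha : (a : F) = 0 := by
      by_contra h
      exact hcon ⟨a, h, a.2⟩
    have hb : (b : F) = 0 := by
      by_contra h
      exact hcon ⟨b, h, b.2⟩
    exact Subtype.ext (ha.trans hb.symm)⟩
  rw [Module.finrank_zero_of_subsingleton] at hpos
  exact lt_irrefl _ hpos

/-- Step (A): Riemann's inequality for divisors below a multiple of `B`. -/
theorem r3_le_of_le_smul (hF : IsFF1 K F) {B : Divisor K F} {n c : ℕ}
    (hdeg : Divisor.degree B = n)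
    (hl : ∀ l : ℕ, (l + 1) * n ≤ Module.finrank K ↥(riemannRochSpace (l • B)) + c)
    (l : ℕ) (D : Divisor K F) (hD : D ≤ l • B) :
    Divisor.degree D - ((c : ℤ) - n) ≤ (Module.finrank K ↥(riemannRochSpace D) : ℤ) := by
  have hE : 0 ≤ l • B - D := sub_nonneg.mpr hD
  have h1 := finrank_add_le hF D (l • B - D) hE
  rw [add_sub_cancel] at h1
  have h2 := hl l
  have h3 : Divisor.degree (l • B - D) = (l : ℤ) * n - Divisor.degree D := by
    rw [map_sub, map_nsmul, hdeg, nsmul_eq_mul]
  have h5 : ((Divisor.degree (l • B - D)).toNat : ℤ) = (l : ℤ) * n - Divisor.degree D := by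
    rw [Int.toNat_of_nonneg (r3_degree_nonneg hF hE), h3]
  zify at h1 h2
  rw [h5] at h1
  linarith

/-- **Riemann's inequality**: `deg D − γ ≤ ℓ(D)` for a constant `γ`. -/
theorem riemann_inequality (hF : IsFF1 K F) :
    ∃ γ : ℤ, ∀ D : Divisor K F,
      Divisor.degree D - γ ≤ (Module.finrank K ↥(riemannRochSpace D) : ℤ) := by
  obtain ⟨B, n, c, -, hn, hdegB, hl⟩ := exists_lower_bound hF
  refine ⟨(c : ℤ) - n, fun A => ?_⟩
  -- the positive part of `A`
  obtain ⟨P, hAP, hP0⟩ : ∃ P : Divisor K F, A ≤ P ∧ 0 ≤ P := ⟨A ⊔ 0, le_sup_left, le_sup_right⟩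
  -- Step (B): `P` is linearly equivalent to some `D₁ ≤ l • B`
  obtain ⟨d, hdP⟩ : ∃ d : ℕ, (d : ℤ) = Divisor.degree P :=
    ⟨(Divisor.degree P).toNat, Int.toNat_of_nonneg (r3_degree_nonneg hF hP0)⟩
  have h1 := finrank_add_le hF ((c + d) • B - P) P hP0
  rw [sub_add_cancel] at h1
  have h2 := hl (c + d)
  have hpos : 0 < Module.finrank K ↥(riemannRochSpace ((c + d) • B - P)) := by
    have h3 : c + d + 1 ≤ (c + d + 1) * n := Nat.le_mul_of_pos_right _ hn
    have h4 : (Divisor.degree P).toNat = d := by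
      rw [← hdP]
      exact Int.toNat_natCast d
    rw [h4] at h1
    omega
  obtain ⟨z, hz0, hz⟩ := r3_exists_ne_zero hpos
  have hD₁l : P - r3Div hF z hz0 ≤ (c + d) • B := by
    rw [Finsupp.le_def]
    intro v
    have h := (mem_riemannRochSpace_iff.mp hz v).resolve_left hz0
    rw [Finsupp.sub_apply] at h ⊢
    rw [r3Div_apply]
    linarith
  have hdegD₁ : Divisor.degree (P - r3Div hF z hz0) = Divisor.degree P := by
    rw [map_sub, r3_degree_div, sub_zero]
  have hfin : Module.finrank K ↥(riemannRochSpace (P - r3Div hF z hz0))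
      = Module.finrank K ↥(riemannRochSpace P) :=
    finrank_eq_of_sub_principal hF (inv_ne_zero hz0) (fun v => by
      rw [Finsupp.sub_apply, r3Div_apply, Place.ord_inv, sub_eq_add_neg])
  have h3 := r3_le_of_le_smul hF hdegB hl (c + d) _ hD₁l
  rw [hdegD₁, hfin] at h3
  -- Step (C): from `P` down to `A`
  have hE : 0 ≤ P - A := sub_nonneg.mpr hAP
  have h4 := finrank_add_le hF A (P - A) hE
  rw [add_sub_cancel] at h4
  have h5 : ((Divisor.degree (P - A)).toNat : ℤ) = Divisor.degree P - Divisor.degree A := by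
    rw [Int.toNat_of_nonneg (r3_degree_nonneg hF hE), map_sub]
  zify at h4
  rw [h5] at h4
  linarith

/-- **[Bdd]**: every divisor of degree zero is linearly equivalent to a divisor of bounded
`ℓ¹`-norm. -/
theorem exists_l1_bound (hF : IsFF1 K F) :
    ∃ M : ℕ, ∀ D ∈ Divisor.degZero (K := K) (F := F), ∃ D' : Divisor K F,
      D - D' ∈ Divisor.principal (K := K) (F := F) ∧ (D'.sum fun _ n => n.natAbs) ≤ M := by
  obtain ⟨γ, hγ⟩ := riemann_inequality hF
  obtain ⟨B, n, c, -, hn, hdegB, -⟩ := exists_lower_bound hF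
  -- there is a place
  have hBne : B ≠ 0 := by
    rintro rfl
    rw [map_zero] at hdegB
    omega
  obtain ⟨P₀, -⟩ : ∃ P₀, P₀ ∈ B.support := Finsupp.support_nonempty_iff.mpr hBne
  obtain ⟨g, hg⟩ : ∃ g : ℕ, γ + 1 ≤ (g : ℤ) := ⟨γ.toNat + 1, by
    have := Int.self_le_toNat γ
    push_cast
    omega⟩
  refine ⟨2 * g, fun D hD => ?_⟩
  have hdegE₀ : Divisor.degree (Finsupp.single P₀ (g : ℤ)) = g := by
    rw [Divisor.degree_single, place_deg_eq_one hF, Nat.cast_one, mul_one]
  have hdeg : Divisor.degree (D + Finsupp.single P₀ (g : ℤ)) = g := by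
    rw [map_add, Divisor.mem_degZero.mp hD, zero_add, hdegE₀]
  have hpos : 0 < Module.finrank K ↥(riemannRochSpace (D + Finsupp.single P₀ (g : ℤ))) := by
    have h1 := hγ (D + Finsupp.single P₀ (g : ℤ))
    rw [hdeg] at h1
    omega
  obtain ⟨z, hz0, hz⟩ := r3_exists_ne_zero hpos
  refine ⟨D + r3Div hF z hz0, ?_, ?_⟩
  · have h : D - (D + r3Div hF z hz0) = -r3Div hF z hz0 := by abel
    rw [h]
    exact neg_mem ⟨z, hz0, fun v => r3Div_apply hF z hz0 v⟩
  · have hD''0 : 0 ≤ D + Finsupp.single P₀ (g : ℤ) + r3Div hF z hz0 := by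
      rw [Finsupp.le_def]
      intro v
      have h := (mem_riemannRochSpace_iff.mp hz v).resolve_left hz0
      rw [Finsupp.add_apply, r3Div_apply, Finsupp.zero_apply]
      linarith
    have hdegD'' : Divisor.degree (D + Finsupp.single P₀ (g : ℤ) + r3Div hF z hz0) = g := by
      rw [map_add, hdeg, r3_degree_div, add_zero]
    have hl1 : BddKill.l1 (D + Finsupp.single P₀ (g : ℤ) + r3Div hF z hz0) = g := by
      have h := r3_l1_eq_degree hF hD''0
      rw [hdegD''] at h
      exact_mod_cast h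
    have hsub : D + r3Div hF z hz0
        = (D + Finsupp.single P₀ (g : ℤ) + r3Div hF z hz0) - Finsupp.single P₀ (g : ℤ) := by
      abel
    show BddKill.l1 (D + r3Div hF z hz0) ≤ 2 * g
    rw [hsub]
    refine (BddKill.l1_sub_le _ _).trans ?_
    rw [hl1, BddKill.l1_single, Int.natAbs_natCast]
    omega

end Fermat.Agent.S37.P.RR
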