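/-
S37 Route P (sub-captain: helper31), leaf (P5'): the two congruences on DEGREE-ZERO divisors,
from the congruences on principal divisors (`ESPrin`, `EquivPrin`), the bounded-`δ` trick
(`BddKill`) and the bounded-representative property of `F̄_N` (`RR.exists_l1_bound`).

Owner: helper104.  Both statements are verbatim helper31's skeleton.  Proof: the difference `δ`
of the two sides is an additive map `Div F̄_N → Div F_k` which kills principal divisors and is
`ℓ¹`-bounded on single places (by `2`, resp. by `[F̄_{Nℓ} : β F̄_N] + 1 + ℓ`); since every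
degree-zero divisor is linearly equivalent to one of bounded `ℓ¹`-norm (Riemann's inequality),
`BddKill.eq_zero_of_bounded` shows that `δ` kills all degree-zero divisors.
-/
import Mathlib
import Fermat.Agent.S37.Core
import Fermat.Agent.S37.HeckeInputs
import Fermat.Agent.S37.P.BddKill
import Fermat.Agent.S37.P.HeckeBound
import Fermat.Agent.S37.P.Riemann
import Fermat.Agent.S37.P.ESPrin
import Fermat.Agent.S37.P.EquivPrin

set_option autoImplicit false

open ModularCurve AlgebraicCurve HahnSeries

namespace Fermat.Agent.S37.P.DegZero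

open Fermat.Agent.S37Core Fermat.Agent.S37.P.BddKill

noncomputable section

set_option synthInstance.maxHeartbeats 400000

/-- Every degree-zero divisor of `F̄_N` is linearly equivalent to one of bounded `ℓ¹`-norm
(`RR.exists_l1_bound` for the modular function field, in `BddKill.l1` form). -/
theorem exists_l1_bound_modular (N : ℕ) [NeZero N] :
    ∃ M : ℕ, ∀ D ∈ Divisor.degZero (K := Qb) (F := modularFunctionFieldBar N),
      ∃ D' : Divisor Qb (modularFunctionFieldBar N),
        D - D' ∈ Divisor.principal (K := Qb) (F := modularFunctionFieldBar N) ∧ l1 D' ≤ M :=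
  Fermat.Agent.S37.P.RR.exists_l1_bound (Fermat.Agent.S37.HI.isFF1_modular N)

set_option maxHeartbeats 1600000 in
/-- Equivariance on degree-zero divisors. -/
theorem mapDomain_smul_of_degree_eq_zero (N : ℕ) [NeZero N] (A : ValuationSubring Qb)
    (r : Place Qb (modularFunctionFieldBar N) →
      Place (IsLocalRing.ResidueField A)
        (modularFunctionFieldFullC (IsLocalRing.ResidueField A) N))
    (hr : IsPlaceReductionModL A N r)
    (hgen : PrincipalGeneratedByIntegral A (IsLocalRing.residue A) N)
    (g : A.decompositionSubgroup ℚ)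
    (D : Divisor Qb (modularFunctionFieldBar N)) (hD : Divisor.degree D = 0) :
    Finsupp.mapDomain r (arithmeticGalois (modularFunctionFieldFull N) (g : GQ) • D) =
      decompSL A N g • Finsupp.mapDomain r D := by
  obtain ⟨M, hM⟩ := exists_l1_bound_modular N
  -- the difference of the two sides, as an additive map
  let δ : Divisor Qb (modularFunctionFieldBar N) →+
      Divisor (IsLocalRing.ResidueField A)
        (modularFunctionFieldFullC (IsLocalRing.ResidueField A) N) :=
    (Finsupp.mapDomain.addMonoidHom r).comp
        (DistribSMul.toAddMonoidHom (Divisor Qb (modularFunctionFieldBar N))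
          (arithmeticGalois (modularFunctionFieldFull N) (g : GQ))) -
      (DistribSMul.toAddMonoidHom
        (Divisor (IsLocalRing.ResidueField A)
          (modularFunctionFieldFullC (IsLocalRing.ResidueField A) N)) (decompSL A N g)).comp
        (Finsupp.mapDomain.addMonoidHom r)
  have hδapp : ∀ E, δ E =
      Finsupp.mapDomain r (arithmeticGalois (modularFunctionFieldFull N) (g : GQ) • E) -
        decompSL A N g • Finsupp.mapDomain r E := fun E => rfl
  have hP : ∀ E ∈ Divisor.principal (K := Qb) (F := modularFunctionFieldBar N), δ E = 0 := by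
    intro E hE
    rw [hδapp, EquivPrin.mapDomain_smul_of_principal N A r hr hgen g E hE, sub_self]
  have hC : ∀ u, l1 (δ (Finsupp.single u 1)) ≤ 2 := by
    intro u
    rw [hδapp, SemilinearAut.smul_single, Finsupp.mapDomain_single, Finsupp.mapDomain_single,
      SemilinearAut.smul_single]
    refine (l1_sub_le _ _).trans ?_
    rw [l1_single, l1_single]
    exact le_of_eq rfl
  have h0 := eq_zero_of_bounded (Divisor.degZero (K := Qb) (F := modularFunctionFieldBar N))
    (Divisor.principal (K := Qb) (F := modularFunctionFieldBar N)) δ hP 2 hC M hM D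
    (Divisor.mem_degZero.mpr hD)
  rw [hδapp, sub_eq_zero] at h0
  exact h0

set_option maxHeartbeats 1600000 in
/-- Eichler–Shimura on degree-zero divisors. -/
theorem mapDomain_heckeDivBar_of_degree_eq_zero (N ℓ : ℕ) [NeZero N] [NeZero ℓ] (hℓ : ℓ.Prime)
    (hℓN : ¬ ℓ ∣ N) (A : ValuationSubring Qb) (hA : A.LiesOverPrime ℓ)
    (r : Place Qb (modularFunctionFieldBar N) →
      Place (IsLocalRing.ResidueField A)
        (modularFunctionFieldFullC (IsLocalRing.ResidueField A) N))
    (hr : IsPlaceReductionModL A N r)
    (hgen : PrincipalGeneratedByIntegral A (IsLocalRing.residue A) N)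
    (φ : GQ) (hφ : A.IsFrobeniusAt φ ℓ)
    (hα : HeckeAlphaBarIntegral Qb N ℓ) (hβ : HeckeBetaBarIntegral Qb N ℓ)
    [HasPrincipalDivisors Qb (laurentBaseChange Qb (modularFunctionFieldFull (N * ℓ)))]
    (D : Divisor Qb (modularFunctionFieldBar N)) (hD : Divisor.degree D = 0) :
    Finsupp.mapDomain r (heckeDivBar hα hβ D) =
      decompSL A N ⟨φ, hφ.mem_decompositionSubgroup⟩ • Finsupp.mapDomain r D +
        (ℓ : ℤ) • ((decompSL A N ⟨φ, hφ.mem_decompositionSubgroup⟩)⁻¹ •
          Finsupp.mapDomain r D) := by
  obtain ⟨M, hM⟩ := exists_l1_bound_modular N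
  -- the difference of the two sides, as an additive map
  let δ : Divisor Qb (modularFunctionFieldBar N) →+
      Divisor (IsLocalRing.ResidueField A)
        (modularFunctionFieldFullC (IsLocalRing.ResidueField A) N) :=
    (Finsupp.mapDomain.addMonoidHom r).comp (heckeDivBar hα hβ) -
      ((DistribSMul.toAddMonoidHom
          (Divisor (IsLocalRing.ResidueField A)
            (modularFunctionFieldFullC (IsLocalRing.ResidueField A) N))
          (decompSL A N ⟨φ, hφ.mem_decompositionSubgroup⟩)).comp
          (Finsupp.mapDomain.addMonoidHom r) +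
        (ℓ : ℤ) • (DistribSMul.toAddMonoidHom
          (Divisor (IsLocalRing.ResidueField A)
            (modularFunctionFieldFullC (IsLocalRing.ResidueField A) N))
          (decompSL A N ⟨φ, hφ.mem_decompositionSubgroup⟩)⁻¹).comp
          (Finsupp.mapDomain.addMonoidHom r))
  have hδapp : ∀ E, δ E =
      Finsupp.mapDomain r (heckeDivBar hα hβ E) -
        (decompSL A N ⟨φ, hφ.mem_decompositionSubgroup⟩ • Finsupp.mapDomain r E +
          (ℓ : ℤ) • ((decompSL A N ⟨φ, hφ.mem_decompositionSubgroup⟩)⁻¹ •
            Finsupp.mapDomain r E)) := fun E => rfl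
  have hP : ∀ E ∈ Divisor.principal (K := Qb) (F := modularFunctionFieldBar N), δ E = 0 := by
    intro E hE
    rw [hδapp, ESPrin.mapDomain_heckeDivBar_of_principal N ℓ hℓ hℓN A hA r hr hgen φ hφ hα hβ E
      hE, sub_self]
  have hC : ∀ u, l1 (δ (Finsupp.single u 1)) ≤
      finrankAlong Qb (heckeBetaBar Qb N ℓ) + (1 + ℓ) := by
    intro u
    rw [hδapp]
    refine (l1_sub_le _ _).trans (Nat.add_le_add ((l1_mapDomain_le _ _).trans
      (HeckeBound.l1_heckeDivBar_single_le N ℓ hα hβ u)) ?_)
    rw [Finsupp.mapDomain_single, SemilinearAut.smul_single, SemilinearAut.smul_single]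
    refine (l1_add_le _ _).trans ?_
    rw [l1_zsmul, l1_single, l1_single]
    simp
  have h0 := eq_zero_of_bounded (Divisor.degZero (K := Qb) (F := modularFunctionFieldBar N))
    (Divisor.principal (K := Qb) (F := modularFunctionFieldBar N)) δ hP _ hC M hM D
    (Divisor.mem_degZero.mpr hD)
  rw [hδapp, sub_eq_zero] at h0
  exact h0

end

end Fermat.Agent.S37.P.DegZero
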