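/-
S37 Route P (sub-captain: helper31) — Plan.lean: the glue
  `ReductionInputsModL A N` (for all `ℓ ∤ N`, `A | ℓ`)  +  frozen S18  ⟹  frozen S37.
Everything except the two hypotheses is proved: [H] (`HeckeInputs`), [Frob∃] (`FrobEx`),
[W]+[KC] (through `ESFun`/`ESPrin`), equivariance (`EquivPrin`), [Bdd] (`Riemann`),
the bounded-`δ` trick (`BddKill`, `DegZero`) and the formal core (`Core2`, `Top`).
-/
import Mathlib
import Fermat.Agent.S37.Top
import Fermat.Agent.S37.Core
import Fermat.Agent.S37.Core2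
import Fermat.Agent.S37.FrobEx
import Fermat.Agent.S37.HeckeInputs
import Fermat.Agent.S37.P.DegZero

set_option autoImplicit false

open ModularCurve AlgebraicCurve HahnSeries

namespace Fermat.Agent.S37.P.Plan

open Fermat.Agent.S37Core

noncomputable section

set_option synthInstance.maxHeartbeats 400000

/-- `SpecCore` at `(ℓ, A)` from the frozen S18 statement and `ReductionInputsModL A N`. -/
theorem specCore_of_reductionInputs (N p : ℕ) [NeZero N] (ℓ : ℕ) (hℓ : ℓ.Prime)
    (hℓNp : ¬ ℓ ∣ N * p) (A : ValuationSubring Qb) (hA : A.LiesOverPrime ℓ)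
    (hS18 : S18Statement N) (h : ReductionInputsModL A N) :
    Fermat.Agent.S37Top.SpecCore N p ℓ hℓ A := by
  have hne : NeZero ℓ := ⟨hℓ.ne_zero⟩
  have hℓN : ¬ ℓ ∣ N := fun h' => hℓNp (Dvd.dvd.mul_right h' p)
  obtain ⟨r, hr, hgen⟩ := h
  refine Fermat.Agent.S37Core2.specCore_of_div0 N p ℓ hℓ hℓNp A hA hS18
    (Fermat.Agent.S37.HI.heckeInputsAlong_of_neZero N ℓ)
    (Fermat.Agent.S37.FrobEx.exists_isFrobeniusAt_of_liesOver ℓ hℓ A hA) r hr hgen ?_ ?_
  · intro g D hD
    exact Fermat.Agent.S37.P.DegZero.mapDomain_smul_of_degree_eq_zero N A r hr hgen g D hD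
  · intro φ hφ hα hβ _ D hD
    exact Fermat.Agent.S37.P.DegZero.mapDomain_heckeDivBar_of_degree_eq_zero N ℓ hℓ hℓN A hA r hr
      hgen φ hφ hα hβ D hD

/-- **S37 from S18 and the reduction inputs** (frozen conclusion). -/
theorem specializationExists_of_reductionInputs (N p : ℕ) [NeZero N]
    (hcomm : HeckeOperatorsCommuteBar N) (hS18 : S18Statement N)
    (hR : ∀ ℓ : ℕ, ℓ.Prime → ¬ ℓ ∣ N → ∀ A : ValuationSubring Qb, A.LiesOverPrime ℓ →
      ReductionInputsModL A N) :
    letI := heckeModuleBar N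
    ∀ (_ : SMulCommClass (AlgebraicClosure ℚ ≃ₐ[ℚ] AlgebraicClosure ℚ) HeckeAlg (JZero N)),
      SpecializationExists (K := ℚ) (L := AlgebraicClosure ℚ) N p (JZero N) :=
  Fermat.Agent.S37Top.specializationExists_of_specCore N p hcomm fun ℓ hℓ hℓNp A hA =>
    specCore_of_reductionInputs N p ℓ hℓ hℓNp A hA hS18
      (hR ℓ hℓ (fun h' => hℓNp (Dvd.dvd.mul_right h' p)) A hA)

end

end Fermat.Agent.S37.P.Plan
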