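/-
S37 Route P, block [Bdd], leaf (R2), core (helper51): the lower bound
`(l + 1)·n ≤ ℓ(l·B) + c` for the pole divisor `B` of a transcendental `x`, `n = [F : K(x)]`,
in HYPOTHESIS FORM: finite-dimensionality of the Riemann–Roch spaces and the effective step
`ℓ(D + E) ≤ ℓ(D) + deg E` are taken as hypotheses (they are leaves (R1b)).
Also: the pole divisor `poleDiv` of an element and its basic properties.
-/
import Mathlib
import Fermat.Prelude.Def_AlgebraicCurve_Repartitions
import Fermat.Agent.S24.Defs
import Fermat.Agent.S24.Residue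
import Fermat.Agent.S24.Principal

set_option autoImplicit false

open AlgebraicCurve IntermediateField

namespace Fermat.Agent.S37.P.RRLowerCore

open Fermat.Agent.S24

variable {K F : Type*} [Field K] [Field F] [Algebra K F] [IsAlgClosed K] [CharZero K]

/-- Every element (also `0`) has finitely many zeros and poles. -/
theorem finite_ord_ne_zero_all (hF : IsFF1 K F) (f : F) :
    {v : Place K F | v.ord f ≠ 0}.Finite := by
  rcases eq_or_ne f 0 with rfl | hf
  · have h : {v : Place K F | v.ord (0 : F) ≠ 0} = ∅ := by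
      ext v
      simp
    rw [h]
    exact Set.finite_empty
  · exact finite_ord_ne_zero hF hf

/-- The pole divisor `(f)_∞ = ∑_v max(0, -ord_v f) · v`. -/
noncomputable def poleDiv (hF : IsFF1 K F) (f : F) : Divisor K F :=
  Finsupp.onFinset (finite_ord_ne_zero_all hF f).toFinset (fun v => max 0 (-(v.ord f)))
    (fun v hv => by
      rw [Set.Finite.mem_toFinset]
      intro h0
      apply hv
      simp [h0])

theorem poleDiv_apply (hF : IsFF1 K F) (f : F) (v : Place K F) :
    poleDiv hF f v = max 0 (-(v.ord f)) := rfl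

theorem poleDiv_nonneg (hF : IsFF1 K F) (f : F) : 0 ≤ poleDiv hF f := by
  intro v
  rw [poleDiv_apply]
  exact le_max_left _ _

theorem neg_poleDiv_le_ord (hF : IsFF1 K F) (f : F) (v : Place K F) :
    -(poleDiv hF f v) ≤ v.ord f := by
  rw [poleDiv_apply]
  have := le_max_right 0 (-(v.ord f))
  omega

/-- The pole divisor of a transcendental `x` has degree `[F : K(x)]`. -/
theorem degree_poleDiv (hF : IsFF1 K F) {x : F} (hx : Transcendental K x) :
    Divisor.degree (poleDiv hF x) = (Module.finrank K⟮x⟯ F : ℤ) := by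
  have h1 : Divisor.degree (poleDiv hF x) = ∑ v ∈ (poleDiv hF x).support, poleDiv hF x v := by
    show (Finsupp.liftAddHom fun v : Place K F => AddMonoidHom.mulRight (v.deg : ℤ))
      (poleDiv hF x) = _
    rw [Finsupp.liftAddHom_apply, Finsupp.sum]
    refine Finset.sum_congr rfl fun v _ => ?_
    rw [AddMonoidHom.mulRight_apply, place_deg_eq_one hF v, Nat.cast_one, mul_one]
  have h2 : ((poleDiv hF x).support : Set (Place K F)) = {v : Place K F | v.ord x < 0} := by
    ext v
    simp only [Finset.mem_coe, Finsupp.mem_support_iff, Set.mem_ofPred_eq, poleDiv_apply]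
    constructor
    · intro h
      by_contra h'
      exact h (max_eq_left (by omega))
    · intro h h'
      have := le_max_right 0 (-(v.ord x))
      omega
  rw [h1, ← finsum_mem_coe_finset, h2]
  have h3 : ∑ᶠ v ∈ {v : Place K F | v.ord x < 0}, poleDiv hF x v
      = ∑ᶠ v ∈ {v : Place K F | v.ord x < 0}, -(v.ord x) := by
    refine finsum_mem_congr rfl fun v hv => ?_
    rw [poleDiv_apply]
    simp only [Set.mem_ofPred_eq] at hv
    exact max_eq_right (by omega)
  rw [h3, finsum_mem_neg_distrib (f := fun v : Place K F => v.ord x) (finite_ord_neg hF hx),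
    sum_ord_neg hF hx, neg_neg]

omit [IsAlgClosed K] [CharZero K] in
/-- The first `l + 1` powers of a transcendental element are linearly independent. -/
theorem linearIndependent_pow_of_transcendental {S : Type*} [CommRing S] [Algebra K S] {y : S}
    (hy : Transcendental K y) (l : ℕ) :
    LinearIndependent K fun a : Fin (l + 1) => y ^ (a : ℕ) := by
  classical
  refine Fintype.linearIndependent_iff.2 fun g hg i => ?_
  simp_rw [Algebra.smul_def, ← Polynomial.aeval_monomial, ← map_sum] at hg
  have h0 := (transcendental_iff.mp hy) _ hg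
  apply_fun Polynomial.lcoeff K i at h0
  simp_rw [map_sum, Polynomial.lcoeff_apply, Polynomial.coeff_monomial, Fin.val_eq_val,
    Finset.sum_ite_eq'] at h0
  simpa using h0

/-- **(R2), hypothesis form.** -/
theorem exists_lower_bound_of (hF : IsFF1 K F)
    (hfd : ∀ D : Divisor K F, FiniteDimensional K ↥(riemannRochSpace D))
    (hadd : ∀ D E : Divisor K F, 0 ≤ E →
      Module.finrank K ↥(riemannRochSpace (D + E)) ≤
        Module.finrank K ↥(riemannRochSpace D) + (Divisor.degree E).toNat) :
    ∃ (B : Divisor K F) (n c : ℕ), 0 ≤ B ∧ 0 < n ∧ Divisor.degree B = n ∧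
      ∀ l : ℕ, (l + 1) * n ≤ Module.finrank K ↥(riemannRochSpace (l • B)) + c := by
  classical
  have hF' := hF
  obtain ⟨x, hx, hfin⟩ := hF'
  have := hfin
  have hx0 : x ≠ 0 := fun h => hx (h ▸ isAlgebraic_zero)
  have hn : 0 < Module.finrank K⟮x⟯ F := Module.finrank_pos
  let b := Module.finBasis K⟮x⟯ F
  have hC : (0 : Divisor K F) ≤ ∑ i, poleDiv hF (b i) :=
    Finset.sum_nonneg fun i _ => poleDiv_nonneg hF (b i)
  refine ⟨poleDiv hF x, Module.finrank K⟮x⟯ F, (Divisor.degree (∑ i, poleDiv hF (b i))).toNat,
    poleDiv_nonneg hF x, hn, degree_poleDiv hF hx, fun l => ?_⟩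
  -- membership
  have hmem : ∀ (a : Fin (l + 1)) (i : Fin (Module.finrank K⟮x⟯ F)),
      x ^ (a : ℕ) * b i ∈ riemannRochSpace (l • poleDiv hF x + ∑ i, poleDiv hF (b i)) := by
    intro a i
    rw [mem_riemannRochSpace_iff]
    intro v
    right
    have hb : b i ≠ 0 := b.ne_zero i
    have hxa : x ^ (a : ℕ) ≠ 0 := pow_ne_zero _ hx0
    have hpow : v.ord (x ^ (a : ℕ)) = (a : ℕ) * v.ord x := by
      have := v.ord_zpow x ((a : ℕ) : ℤ)
      rwa [zpow_natCast] at this
    rw [v.ord_mul hxa hb, hpow, Finsupp.add_apply, Finsupp.smul_apply, Finsupp.finsetSum_apply,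
      nsmul_eq_mul]
    have h1 := neg_poleDiv_le_ord hF x v
    have h2 : (0 : ℤ) ≤ poleDiv hF x v := poleDiv_nonneg hF x v
    have h3 : (((a : ℕ) : ℤ)) ≤ (l : ℤ) := by
      have := a.2
      omega
    have h4 := neg_poleDiv_le_ord hF (b i) v
    have h5 : poleDiv hF (b i) v ≤ ∑ j, poleDiv hF (b j) v :=
      Finset.single_le_sum (f := fun j => poleDiv hF (b j) v)
        (fun j _ => poleDiv_nonneg hF (b j) v) (Finset.mem_univ i)
    have h6 := mul_le_mul_of_nonneg_left h1 (Int.natCast_nonneg (a : ℕ))
    have h7 := mul_le_mul_of_nonneg_right h3 h2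
    nlinarith
  -- linear independence
  have hgen : Transcendental K (AdjoinSimple.gen K x) := by
    intro h
    apply hx
    have := h.algebraMap (A := F)
    rwa [AdjoinSimple.algebraMap_gen] at this
  have key :=
    linearIndependent_smul (linearIndependent_pow_of_transcendental hgen l) b.linearIndependent
  have hli : LinearIndependent K fun p : Fin (l + 1) × Fin (Module.finrank K⟮x⟯ F) =>
      (⟨x ^ (p.1 : ℕ) * b p.2, hmem p.1 p.2⟩ :
        ↥(riemannRochSpace (l • poleDiv hF x + ∑ i, poleDiv hF (b i)))) := by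
    apply LinearIndependent.of_comp (Submodule.subtype _)
    convert key using 1
    funext p
    simp [Algebra.smul_def]
  have := hfd (l • poleDiv hF x + ∑ i, poleDiv hF (b i))
  have hcard := hli.fintype_card_le_finrank
  rw [Fintype.card_prod, Fintype.card_fin, Fintype.card_fin] at hcard
  exact hcard.trans (hadd (l • poleDiv hF x) (∑ i, poleDiv hF (b i)) hC)

end Fermat.Agent.S37.P.RRLowerCore
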