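/-
S37 Route P, block [Bdd], leaf (R1b), B-copy (owner: helper105): Riemann–Roch spaces —
the effective step, finite-dimensionality, `ℓ(D + E) ≤ ℓ(D) + deg E`.

The proofs are in HYPOTHESIS FORM (suffix `_of`): the two facts of leaf (R1a) that are used,
the one-point step (`StepHyp`) and "functions without poles are constant" (`ConstHyp`), are
explicit hypotheses, so that this file does not depend on (R1a).
`L(D) = AlgebraicCurve.riemannRochSpace D` is the frozen Prelude definition.
-/
import Mathlib
import Fermat.Prelude.Def_AlgebraicCurve_Repartitions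
import Fermat.Agent.S24.Defs
import Fermat.Agent.S24.Residue
import Fermat.Agent.S24.Principal

set_option autoImplicit false

open AlgebraicCurve

namespace Fermat.Agent.S37.P.RRSpaceB

open Fermat.Agent.S24

section Generic

variable {K F : Type*} [Field K] [Field F] [Algebra K F]

/-- The one-point step (statement of `exists_functional_step` of leaf (R1a)):
`L(D + P) / L(D)` has dimension at most one. -/
def StepHyp (K F : Type*) [Field K] [Field F] [Algebra K F] : Prop :=
  ∀ (D : Divisor K F) (P : Place K F),
    ∃ φ : ↥(riemannRochSpace (D + Finsupp.single P 1)) →ₗ[K] K,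
      ∀ f, φ f = 0 → (f : F) ∈ riemannRochSpace D

/-- Functions without poles are constant (statement of `exists_eq_algebraMap_of_mem_zero` of
leaf (R1a)). -/
def ConstHyp (K F : Type*) [Field K] [Field F] [Algebra K F] : Prop :=
  ∀ f : F, f ∈ riemannRochSpace (0 : Divisor K F) → ∃ a : K, f = algebraMap K F a

/-- `L(D)` is monotone in `D`. -/
theorem riemannRochSpace_mono {D D' : Divisor K F} (h : D ≤ D') :
    riemannRochSpace D ≤ riemannRochSpace D' := fun _ hf v =>
  (hf v).trans (WithZero.exp_le_exp.mpr (Finsupp.le_def.mp h v))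

/-- The degree of a divisor, when all places have degree one. -/
theorem degree_eq_sum (hdeg : ∀ v : Place K F, v.deg = 1) (D : Divisor K F) :
    Divisor.degree D = ∑ v ∈ D.support, D v := by
  show (Finsupp.liftAddHom fun v : Place K F => AddMonoidHom.mulRight (v.deg : ℤ)) D = _
  rw [Finsupp.liftAddHom_apply, Finsupp.sum]
  refine Finset.sum_congr rfl fun v _ => ?_
  rw [AddMonoidHom.mulRight_apply, hdeg v, Nat.cast_one, mul_one]

/-- An effective divisor has nonnegative degree. -/
theorem degree_nonneg (hdeg : ∀ v : Place K F, v.deg = 1) {E : Divisor K F} (hE : 0 ≤ E) :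
    0 ≤ Divisor.degree E := by
  rw [degree_eq_sum hdeg]
  exact Finset.sum_nonneg fun v _ => Finsupp.le_def.mp hE v

/-- An effective divisor of degree zero is zero. -/
theorem eq_zero_of_degree_eq_zero (hdeg : ∀ v : Place K F, v.deg = 1) {E : Divisor K F}
    (hE : 0 ≤ E) (h : Divisor.degree E = 0) : E = 0 := by
  rw [degree_eq_sum hdeg] at h
  have h0 := (Finset.sum_eq_zero_iff_of_nonneg fun v _ => Finsupp.le_def.mp hE v).mp h
  ext v
  by_cases hv : v ∈ E.support
  · exact h0 v hv
  · simpa using hv

/-- Effective step, indexed by the degree. -/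
theorem exists_linearMap_aux (hdeg : ∀ v : Place K F, v.deg = 1) (hstep : StepHyp K F) :
    ∀ (n : ℕ) (D E : Divisor K F), 0 ≤ E → Divisor.degree E = n →
      ∃ Φ : ↥(riemannRochSpace (D + E)) →ₗ[K] (Fin n → K),
        ∀ f, Φ f = 0 → (f : F) ∈ riemannRochSpace D := by
  intro n
  induction n with
  | zero =>
    intro D E hE hdegE
    have hE0 : E = 0 := eq_zero_of_degree_eq_zero hdeg hE (by simpa using hdegE)
    subst hE0
    exact ⟨0, fun f _ => riemannRochSpace_mono (add_zero D).le f.2⟩
  | succ n ih =>
    intro D E hE hdegE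
    have hEne : E ≠ 0 := by
      rintro rfl
      rw [map_zero] at hdegE
      exact absurd hdegE (by exact_mod_cast (Nat.succ_ne_zero n).symm)
    obtain ⟨P, hP⟩ : ∃ P : Place K F, E P ≠ 0 := by
      by_contra hcon
      exact hEne (Finsupp.ext fun v => by_contra fun h => hcon ⟨v, h⟩)
    have hP0 : 0 ≤ E P := Finsupp.le_def.mp hE P
    have hP1 : 1 ≤ E P := by omega
    have hE'0 : 0 ≤ E - Finsupp.single P 1 := by
      rw [Finsupp.le_def]
      intro v
      rw [Finsupp.sub_apply, Finsupp.zero_apply]
      by_cases hv : v = P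
      · subst hv
        rw [Finsupp.single_eq_same]
        omega
      · rw [Finsupp.single_eq_of_ne hv, sub_zero]
        exact Finsupp.le_def.mp hE v
    have hdegE' : Divisor.degree (E - Finsupp.single P 1) = n := by
      rw [map_sub, hdegE, Divisor.degree_single, hdeg P]
      push_cast
      ring
    obtain ⟨Φ', hΦ'⟩ := ih D (E - Finsupp.single P 1) hE'0 hdegE'
    obtain ⟨φ, hφ⟩ := hstep (D + (E - Finsupp.single P 1)) P
    have heq : D + E = D + (E - Finsupp.single P 1) + Finsupp.single P 1 := by abel
    have hle : riemannRochSpace (D + (E - Finsupp.single P 1)) ≤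
        riemannRochSpace (D + (E - Finsupp.single P 1) + Finsupp.single P 1) := by
      apply riemannRochSpace_mono
      rw [Finsupp.le_def]
      intro v
      rw [Finsupp.add_apply (g₂ := Finsupp.single P 1)]
      have : (0 : ℤ) ≤ (Finsupp.single P (1 : ℤ)) v := by
        by_cases hv : v = P
        · subst hv; rw [Finsupp.single_eq_same]; exact zero_le_one
        · rw [Finsupp.single_eq_of_ne hv]
      omega
    obtain ⟨g, hg⟩ := LinearMap.exists_leftInverse_of_injective (Submodule.inclusion hle)
      (LinearMap.ker_eq_bot.mpr (Submodule.inclusion_injective hle))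
    let e := LinearEquiv.ofEq _ _ (congrArg (riemannRochSpace (K := K) (F := F)) heq)
    refine ⟨(LinearMap.vecCons φ (Φ' ∘ₗ g)) ∘ₗ e.toLinearMap, ?_⟩
    intro f hf
    have hf' : Matrix.vecCons (φ (e f)) (Φ' (g (e f))) = 0 := hf
    have h1 : φ (e f) = 0 := by
      have := congrFun hf' 0
      simpa using this
    have h2 : Φ' (g (e f)) = 0 := by
      funext j
      have := congrFun hf' j.succ
      simpa using this
    have hmem : (f : F) ∈ riemannRochSpace (D + (E - Finsupp.single P 1)) := hφ (e f) h1
    have hincl : Submodule.inclusion hle ⟨(f : F), hmem⟩ = e f := Subtype.ext rfl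
    have hg' : g (e f) = ⟨(f : F), hmem⟩ := by
      rw [← hincl]
      exact LinearMap.congr_fun hg _
    rw [hg'] at h2
    exact hΦ' _ h2

/-- Effective step: `L(D + E) / L(D)` has dimension at most `deg E` for `E ≥ 0`
(hypothesis form). -/
theorem exists_linearMap_effective_of_deg (hdeg : ∀ v : Place K F, v.deg = 1)
    (hstep : StepHyp K F) (D E : Divisor K F) (hE : 0 ≤ E) :
    ∃ Φ : ↥(riemannRochSpace (D + E)) →ₗ[K] (Fin (Divisor.degree E).toNat → K),
      ∀ f, Φ f = 0 → (f : F) ∈ riemannRochSpace D :=
  exists_linearMap_aux hdeg hstep _ D E hE (Int.toNat_of_nonneg (degree_nonneg hdeg hE)).symm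

/-- `L(D)` is finite-dimensional (hypothesis form). -/
theorem finiteDimensional_riemannRochSpace_of_deg (hdeg : ∀ v : Place K F, v.deg = 1)
    (hstep : StepHyp K F) (hconst : ConstHyp K F) (D : Divisor K F) :
    FiniteDimensional K ↥(riemannRochSpace D) := by
  have hE : (0 : Divisor K F) ≤ D ⊔ 0 := le_sup_right
  obtain ⟨Φ, hΦ⟩ := exists_linearMap_effective_of_deg hdeg hstep 0 (D ⊔ 0) hE
  obtain ⟨r, hr⟩ := LinearMap.exists_leftInverse_of_injective (Algebra.linearMap K F)
    (LinearMap.ker_eq_bot.mpr (algebraMap K F).injective)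
  have hinj : Function.Injective
      (Φ.prod (r ∘ₗ (riemannRochSpace ((0 : Divisor K F) + (D ⊔ 0))).subtype)) := by
    rw [← LinearMap.ker_eq_bot, LinearMap.ker_eq_bot']
    intro f hf
    have h1 : Φ f = 0 := congrArg Prod.fst hf
    have h2 : r (f : F) = 0 := congrArg Prod.snd hf
    obtain ⟨a, ha⟩ := hconst _ (hΦ f h1)
    have h3 : r (algebraMap K F a) = a := LinearMap.congr_fun hr a
    rw [ha, h3] at h2
    apply Subtype.ext
    rw [ha, h2, map_zero]
    rfl
  have hfin : FiniteDimensional K ↥(riemannRochSpace ((0 : Divisor K F) + (D ⊔ 0))) :=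
    FiniteDimensional.of_injective _ hinj
  have hle : riemannRochSpace D ≤ riemannRochSpace ((0 : Divisor K F) + (D ⊔ 0)) := by
    apply riemannRochSpace_mono
    rw [zero_add]
    exact le_sup_left
  exact Submodule.finiteDimensional_of_le hle

/-- `ℓ(D + E) ≤ ℓ(D) + deg E` for `E ≥ 0` (hypothesis form). -/
theorem finrank_add_le_of_deg (hdeg : ∀ v : Place K F, v.deg = 1)
    (hstep : StepHyp K F) (hconst : ConstHyp K F) (D E : Divisor K F) (hE : 0 ≤ E) :
    Module.finrank K ↥(riemannRochSpace (D + E)) ≤
      Module.finrank K ↥(riemannRochSpace D) + (Divisor.degree E).toNat := by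
  obtain ⟨Φ, hΦ⟩ := exists_linearMap_effective_of_deg hdeg hstep D E hE
  have : FiniteDimensional K ↥(riemannRochSpace (D + E)) :=
    finiteDimensional_riemannRochSpace_of_deg hdeg hstep hconst _
  have : FiniteDimensional K ↥(riemannRochSpace D) :=
    finiteDimensional_riemannRochSpace_of_deg hdeg hstep hconst _
  have h1 := LinearMap.finrank_range_add_finrank_ker Φ
  have h2 : Module.finrank K ↥(LinearMap.range Φ) ≤ (Divisor.degree E).toNat := by
    have := Submodule.finrank_le (LinearMap.range Φ)
    rwa [Module.finrank_fin_fun] at this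
  have h3 : Module.finrank K ↥(LinearMap.ker Φ) ≤ Module.finrank K ↥(riemannRochSpace D) := by
    let ψ : ↥(LinearMap.ker Φ) →ₗ[K] ↥(riemannRochSpace D) :=
      LinearMap.codRestrict (riemannRochSpace D)
        ((riemannRochSpace (D + E)).subtype ∘ₗ (LinearMap.ker Φ).subtype)
        (fun x => hΦ x.1 (LinearMap.mem_ker.mp x.2))
    have hψ : Function.Injective ψ := by
      intro x y hxy
      have h4 : ((ψ x : ↥(riemannRochSpace D)) : F) = ((ψ y : ↥(riemannRochSpace D)) : F) :=
        congrArg Subtype.val hxy
      exact Subtype.ext (Subtype.ext h4)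
    exact LinearMap.finrank_le_finrank_of_injective hψ
  omega

end Generic

section FF1

variable {K F : Type*} [Field K] [Field F] [Algebra K F] [IsAlgClosed K] [CharZero K]

/-- Effective step: `L(D + E) / L(D)` has dimension at most `deg E` for `E ≥ 0`
(hypothesis form: the one-point step of (R1a) is a hypothesis). -/
theorem exists_linearMap_effective_of (hF : IsFF1 K F) (hstep : StepHyp K F)
    (D E : Divisor K F) (hE : 0 ≤ E) :
    ∃ Φ : ↥(riemannRochSpace (D + E)) →ₗ[K] (Fin (Divisor.degree E).toNat → K),
      ∀ f, Φ f = 0 → (f : F) ∈ riemannRochSpace D :=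
  exists_linearMap_effective_of_deg (place_deg_eq_one hF) hstep D E hE

/-- `L(D)` is finite-dimensional (hypothesis form). -/
theorem finiteDimensional_riemannRochSpace_of (hF : IsFF1 K F) (hstep : StepHyp K F)
    (hconst : ConstHyp K F) (D : Divisor K F) :
    FiniteDimensional K ↥(riemannRochSpace D) :=
  finiteDimensional_riemannRochSpace_of_deg (place_deg_eq_one hF) hstep hconst D

/-- `ℓ(D + E) ≤ ℓ(D) + deg E` for `E ≥ 0` (hypothesis form). -/
theorem finrank_add_le_of (hF : IsFF1 K F) (hstep : StepHyp K F) (hconst : ConstHyp K F)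
    (D E : Divisor K F) (hE : 0 ≤ E) :
    Module.finrank K ↥(riemannRochSpace (D + E)) ≤
      Module.finrank K ↥(riemannRochSpace D) + (Divisor.degree E).toNat :=
  finrank_add_le_of_deg (place_deg_eq_one hF) hstep hconst D E hE

end FF1

end Fermat.Agent.S37.P.RRSpaceB
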