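/-
S37 Route P, block [Bdd], leaf (R1a), B-copy (owner: helper104): Riemann–Roch spaces of a function
field in one variable over an algebraically closed field of characteristic zero —
constants, the one-point step, negative degree, linear equivalence.
`L(D) = AlgebraicCurve.riemannRochSpace D` is the frozen Prelude definition.
-/
import Mathlib
import Fermat.Prelude.Def_AlgebraicCurve_Repartitions
import Fermat.Agent.S24.Defs
import Fermat.Agent.S24.Residue
import Fermat.Agent.S24.Principal

set_option autoImplicit false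

open AlgebraicCurve

namespace Fermat.Agent.S37.P.RRStepB

open Fermat.Agent.S24

variable {K F : Type*} [Field K] [Field F] [Algebra K F]

/-! ### Generalities (no hypothesis on `K`) -/

/-- Membership in `L(D)` for a nonzero function. -/
theorem mem_iff_of_ne_zero {D : Divisor K F} {f : F} (hf : f ≠ 0) :
    f ∈ riemannRochSpace D ↔ ∀ v : Place K F, -D v ≤ v.ord f := by
  rw [mem_riemannRochSpace_iff]
  exact forall_congr' fun v => or_iff_right hf

/-- `L(D) ⊆ L(D')` for `D ≤ D'`. -/
theorem riemannRochSpace_mono {D D' : Divisor K F} (h : D ≤ D') :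
    riemannRochSpace D ≤ riemannRochSpace D' := by
  intro f hf
  rw [mem_riemannRochSpace_iff] at hf ⊢
  intro v
  rcases hf v with h0 | h0
  · exact Or.inl h0
  · exact Or.inr (le_trans (neg_le_neg (h v)) h0)

/-- The degree of an effective divisor is nonnegative. -/
theorem degree_nonneg {E : Divisor K F} (hE : ∀ v, 0 ≤ E v) : 0 ≤ Divisor.degree E := by
  show 0 ≤ (Finsupp.liftAddHom fun v : Place K F => AddMonoidHom.mulRight (v.deg : ℤ)) E
  rw [Finsupp.liftAddHom_apply, Finsupp.sum]
  refine Finset.sum_nonneg fun v _ => ?_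
  rw [AddMonoidHom.mulRight_apply]
  exact mul_nonneg (hE v) (Int.natCast_nonneg _)

/-- Multiplication by `w` maps `L(D₁)` into `L(D₂)` when `D₁ = D₂ + div w`. -/
theorem mul_mem_of_mem {D₁ D₂ : Divisor K F} {w : F} (hw : w ≠ 0)
    (h : ∀ v : Place K F, D₁ v = D₂ v + v.ord w) {f : F} (hf : f ∈ riemannRochSpace D₁) :
    w * f ∈ riemannRochSpace D₂ := by
  rw [mem_riemannRochSpace_iff] at hf ⊢
  intro v
  rcases eq_or_ne f 0 with hf0 | hf0
  · exact Or.inl (by rw [hf0, mul_zero])
  right
  rcases hf v with h0 | h0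
  · exact absurd h0 hf0
  · rw [v.ord_mul hw hf0]
    have := h v
    omega

/-- Multiplication by `z ≠ 0` as a `K`-linear equivalence `L(D') ≃ L(D)` when `D' = D + div z`. -/
noncomputable def mulEquiv {D D' : Divisor K F} {z : F} (hz : z ≠ 0)
    (h : ∀ v : Place K F, D' v = D v + v.ord z) :
    ↥(riemannRochSpace D') ≃ₗ[K] ↥(riemannRochSpace D) where
  toFun f := ⟨z * f, mul_mem_of_mem hz h f.2⟩
  invFun g := ⟨z⁻¹ * g, mul_mem_of_mem (inv_ne_zero hz)
    (fun v => by rw [h v, v.ord_inv]; ring) g.2⟩
  map_add' f g := Subtype.ext (by simp [mul_add])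
  map_smul' c f := Subtype.ext (by simp)
  left_inv f := Subtype.ext (by simp [hz])
  right_inv g := Subtype.ext (by simp [hz])

@[simp]
theorem coe_mulEquiv {D D' : Divisor K F} {z : F} (hz : z ≠ 0)
    (h : ∀ v : Place K F, D' v = D v + v.ord z) (f : ↥(riemannRochSpace D')) :
    ((mulEquiv hz h f : ↥(riemannRochSpace D)) : F) = z * f := rfl

variable [IsAlgClosed K] [CharZero K]

/-! ### The four statements of the leaf -/

/-- A function without poles is constant. -/
theorem exists_eq_algebraMap_of_mem_zero (hF : IsFF1 K F) {f : F}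
    (hf : f ∈ riemannRochSpace (0 : Divisor K F)) : ∃ a : K, f = algebraMap K F a := by
  by_contra hne
  have hnr : f ∉ Set.range (algebraMap K F) := fun ⟨a, ha⟩ => hne ⟨a, ha.symm⟩
  have ht : Transcendental K f := transcendental_of_notMem_range hnr
  have hfd : FiniteDimensional (IntermediateField.adjoin K {f}) F :=
    finiteDimensional_adjoin_simple hF ht
  have hsum := sum_ord_neg hF ht
  have hempty : {v : Place K F | v.ord f < 0} = ∅ := by
    ext v
    simp only [Set.mem_ofPred_eq, Set.mem_empty_iff_false, iff_false, not_lt]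
    rcases (mem_riemannRochSpace_iff.mp hf) v with h | h
    · rw [h]; simp
    · simpa using h
  rw [hempty] at hsum
  have hpos : 0 < Module.finrank (IntermediateField.adjoin K {f}) F := Module.finrank_pos
  simp at hsum
  omega

/-- One-point step: `L(D + P) / L(D)` has dimension at most one. -/
theorem exists_functional_step (hF : IsFF1 K F) (D : Divisor K F) (P : Place K F) :
    ∃ φ : ↥(riemannRochSpace (D + Finsupp.single P 1)) →ₗ[K] K,
      ∀ f, φ f = 0 → (f : F) ∈ riemannRochSpace D := by
  classical
  obtain ⟨π, hπ⟩ := exists_ord_eq_one P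
  have hπ0 : π ≠ 0 := by
    rintro rfl
    simp at hπ
  set n : ℤ := D P + 1 with hn
  have hπn : π ^ n ≠ 0 := zpow_ne_zero n hπ0
  have hord : ∀ f : F, f ≠ 0 → P.ord (π ^ n * f) = n + P.ord f := by
    intro f hf0
    rw [P.ord_mul hπn hf0, P.ord_zpow, hπ, mul_one]
  -- `π ^ n * f` is integral at `P` for `f ∈ L(D + P)`
  have hmem : ∀ f : ↥(riemannRochSpace (D + Finsupp.single P 1)),
      π ^ n * (f : F) ∈ P.toValuationSubring := by
    intro f
    rcases eq_or_ne (f : F) 0 with hf0 | hf0
    · rw [hf0, mul_zero]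
      exact zero_mem _
    · apply mem_of_ord_nonneg
      rw [hord _ hf0]
      have h1 := (mem_iff_of_ne_zero hf0).mp f.2 P
      rw [Finsupp.add_apply, Finsupp.single_eq_same] at h1
      omega
  -- the `K`-linear map `L(D + P) → O_P`, `f ↦ π ^ n * f`
  let ψ : ↥(riemannRochSpace (D + Finsupp.single P 1)) →ₗ[K] P.toValuationSubring :=
    { toFun := fun f => ⟨π ^ n * (f : F), hmem f⟩
      map_add' := fun f g => Subtype.ext (by simp [mul_add])
      map_smul' := fun c f => Subtype.ext (by
        simp only [RingHom.id_apply, Submodule.coe_smul, Algebra.smul_def]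
        show π ^ n * (algebraMap K F c * (f : F)) = algebraMap K F c * (π ^ n * (f : F))
        ring) }
  have hψ : ∀ f, ((ψ f : P.toValuationSubring) : F) = π ^ n * (f : F) := fun f => rfl
  -- the residue map, `K`-linear
  let ρ : P.toValuationSubring →ₗ[K] P.ResidueField :=
    (IsScalarTower.toAlgHom K P.toValuationSubring P.ResidueField).toLinearMap
  have hρ : ∀ x, ρ x = IsLocalRing.residue P.toValuationSubring x := fun x => rfl
  -- the residue field is `K`
  let e : K ≃ₗ[K] P.ResidueField :=
    LinearEquiv.ofBijective (Algebra.linearMap K P.ResidueField)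
      ⟨(algebraMap K P.ResidueField).injective, residue_surjective hF P⟩
  refine ⟨e.symm.toLinearMap ∘ₗ ρ ∘ₗ ψ, ?_⟩
  intro f hf
  have h1 : ρ (ψ f) = 0 := by
    have h := hf
    simp only [LinearMap.coe_comp, LinearEquiv.coe_coe, Function.comp_apply,
      LinearEquiv.map_eq_zero_iff] at h
    exact h
  rw [hρ, IsLocalRing.residue_eq_zero_iff] at h1
  rcases eq_or_ne (f : F) 0 with hf0 | hf0
  · rw [hf0]
    exact zero_mem _
  rw [mem_iff_of_ne_zero hf0]
  intro v
  have h2 := (mem_iff_of_ne_zero hf0).mp f.2 v
  by_cases hv : v = P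
  · subst hv
    have hψ0 : ψ f ≠ 0 := by
      intro h0
      have := congrArg (Subtype.val) h0
      rw [hψ] at this
      exact mul_ne_zero hπn hf0 this
    have h3 : 0 < v.ord ((ψ f : v.toValuationSubring) : F) :=
      (ord_pos_iff_mem_maximalIdeal v (ψ f) hψ0).mpr h1
    rw [hψ, hord _ hf0] at h3
    omega
  · rw [Finsupp.add_apply, Finsupp.single_eq_of_ne hv, add_zero] at h2
    exact h2

/-- `L(D) = 0` when `deg D < 0`. -/
theorem eq_zero_of_mem_of_degree_neg (hF : IsFF1 K F) {D : Divisor K F}
    (hD : Divisor.degree D < 0) {f : F} (hf : f ∈ riemannRochSpace D) : f = 0 := by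
  by_contra hf0
  set E : Divisor K F :=
    Finsupp.ofSupportFinite (fun v => v.ord f) (finite_ord_ne_zero hF hf0) with hE
  have hE0 : Divisor.degree E = 0 := degree_eq_zero_of_principal hF hf0 E (fun v => rfl)
  have h1 : 0 ≤ Divisor.degree (D + E) := degree_nonneg (fun v => by
    have h := (mem_iff_of_ne_zero hf0).mp hf v
    show 0 ≤ D v + v.ord f
    omega)
  rw [map_add, hE0, add_zero] at h1
  omega

set_option linter.unusedSectionVars false in
/-- Linearly equivalent divisors have Riemann–Roch spaces of the same dimension. -/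
theorem finrank_eq_of_sub_principal (hF : IsFF1 K F) {D D' : Divisor K F} {z : F} (hz : z ≠ 0)
    (h : ∀ v : Place K F, D' v = D v + v.ord z) :
    Module.finrank K ↥(riemannRochSpace D') = Module.finrank K ↥(riemannRochSpace D) :=
  have _ := hF
  (mulEquiv hz h).finrank_eq

end Fermat.Agent.S37.P.RRStepB
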