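/-
S37 Route P, block [Bdd] (sub-captain: helper31), leaf (R3), B-copy (helper107):
Riemann's inequality and the bounded-representative property of degree-zero divisor classes,
in HYPOTHESIS FORM: the three upstream leaves (R1a) `finrank_eq_of_sub_principal`,
(R1b) `finrank_add_le`, (R2) `exists_lower_bound` enter as explicit hypotheses `hlin`, `hadd`,
`hlow`, stated exactly as in the leaf skeletons.
`L(D) = AlgebraicCurve.riemannRochSpace D` is the frozen Prelude definition.
-/
import Mathlib
import Fermat.Prelude.Def_AlgebraicCurve_Repartitions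
import Fermat.Agent.S24.Defs
import Fermat.Agent.S24.Residue
import Fermat.Agent.S24.Principal
import Fermat.Agent.S37.P.BddKill

set_option autoImplicit false

open AlgebraicCurve

namespace Fermat.Agent.S37.P.RiemannB

open Fermat.Agent.S24 Fermat.Agent.S37.P.BddKill

variable {K F : Type*} [Field K] [Field F] [Algebra K F]

/-! ### Degree of divisors -/

/-- The degree as a sum over the support. -/
theorem degree_eq_sum (D : Divisor K F) :
    Divisor.degree D = ∑ v ∈ D.support, D v * (v.deg : ℤ) := by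
  show (Finsupp.liftAddHom fun v : Place K F => AddMonoidHom.mulRight (v.deg : ℤ)) D = _
  rw [Finsupp.liftAddHom_apply, Finsupp.sum]
  rfl

/-- Effective divisors have nonnegative degree. -/
theorem degree_nonneg {E : Divisor K F} (hE : 0 ≤ E) : 0 ≤ Divisor.degree E := by
  rw [degree_eq_sum]
  refine Finset.sum_nonneg fun v _ => ?_
  have h : (0 : ℤ) ≤ E v := by simpa using Finsupp.le_def.mp hE v
  exact mul_nonneg h (Int.natCast_nonneg _)

/-- `deg D - ℓ(D)` is monotone in `D`. -/
theorem degree_sub_finrank_mono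
    (hadd : ∀ D E : Divisor K F, 0 ≤ E →
      Module.finrank K ↥(riemannRochSpace (D + E)) ≤
        Module.finrank K ↥(riemannRochSpace D) + (Divisor.degree E).toNat)
    {D D' : Divisor K F} (h : D ≤ D') :
    Divisor.degree D - (Module.finrank K ↥(riemannRochSpace D) : ℤ) ≤
      Divisor.degree D' - (Module.finrank K ↥(riemannRochSpace D') : ℤ) := by
  have hE : 0 ≤ D' - D := sub_nonneg.mpr h
  have h1 := hadd D (D' - D) hE
  rw [add_sub_cancel] at h1
  have h2 := degree_nonneg hE
  have h3 : ((Divisor.degree (D' - D)).toNat : ℤ) = Divisor.degree D' - Divisor.degree D := by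
    rw [Int.toNat_of_nonneg h2, map_sub]
  have h4 : (Module.finrank K ↥(riemannRochSpace D') : ℤ) ≤
      (Module.finrank K ↥(riemannRochSpace D) : ℤ) + ((Divisor.degree (D' - D)).toNat : ℤ) := by
    exact_mod_cast h1
  rw [h3] at h4
  linarith

variable [IsAlgClosed K] [CharZero K]

/-- For an effective divisor (all places have degree one), the `ℓ¹`-norm is the degree. -/
theorem l1_eq_degree (hF : IsFF1 K F) {E : Divisor K F} (hE : 0 ≤ E) :
    ((l1 E : ℕ) : ℤ) = Divisor.degree E := by
  rw [degree_eq_sum, l1_eq_sum_support, Nat.cast_sum]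
  refine Finset.sum_congr rfl fun v _ => ?_
  have h : (0 : ℤ) ≤ E v := by simpa using Finsupp.le_def.mp hE v
  rw [place_deg_eq_one hF v, Nat.cast_one, mul_one, Int.natCast_natAbs, abs_of_nonneg h]

/-- The divisor of a nonzero function. -/
theorem exists_divisor (hF : IsFF1 K F) {z : F} (hz : z ≠ 0) :
    ∃ E : Divisor K F, (∀ v : Place K F, E v = v.ord z) ∧ Divisor.degree E = 0 ∧
      E ∈ Divisor.principal (K := K) (F := F) := by
  refine ⟨Finsupp.ofSupportFinite (fun v : Place K F => v.ord z) (finite_ord_ne_zero hF hz),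
    fun v => rfl, ?_, ⟨z, hz, fun v => rfl⟩⟩
  exact degree_eq_zero_of_principal hF hz _ (fun v => rfl)

/-- Linearly equivalent divisors have the same degree. -/
theorem degree_eq_of_sub_principal (hF : IsFF1 K F) {D D' : Divisor K F} {z : F} (hz : z ≠ 0)
    (h : ∀ v : Place K F, D' v = D v + v.ord z) : Divisor.degree D' = Divisor.degree D := by
  have h0 : Divisor.degree (D' - D) = 0 :=
    degree_eq_zero_of_principal hF hz (D' - D) (fun v => by rw [Finsupp.sub_apply, h v]; ring)
  rw [map_sub] at h0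
  omega

/-! ### Riemann's inequality -/

/-- **Riemann's inequality** (hypothesis form): `deg D − γ ≤ ℓ(D)` for a constant `γ`. -/
theorem riemann_inequality_of (hF : IsFF1 K F)
    (hadd : ∀ D E : Divisor K F, 0 ≤ E →
      Module.finrank K ↥(riemannRochSpace (D + E)) ≤
        Module.finrank K ↥(riemannRochSpace D) + (Divisor.degree E).toNat)
    (hlin : ∀ (D D' : Divisor K F) (z : F), z ≠ 0 →
      (∀ v : Place K F, D' v = D v + v.ord z) →
      Module.finrank K ↥(riemannRochSpace D') = Module.finrank K ↥(riemannRochSpace D))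
    (hlow : ∃ (B : Divisor K F) (n c : ℕ), 0 ≤ B ∧ 0 < n ∧ Divisor.degree B = n ∧
      ∀ l : ℕ, (l + 1) * n ≤ Module.finrank K ↥(riemannRochSpace (l • B)) + c) :
    ∃ γ : ℤ, ∀ D : Divisor K F,
      Divisor.degree D - γ ≤ (Module.finrank K ↥(riemannRochSpace D) : ℤ) := by
  obtain ⟨B, n, c, _hB, hn, hdegB, hlowB⟩ := hlow
  refine ⟨(c : ℤ), fun D => ?_⟩
  -- `A = D⁺`
  have hA0 : (0 : Divisor K F) ≤ D ⊔ 0 := le_sup_right
  have hDA : D ≤ D ⊔ 0 := le_sup_left
  set A : Divisor K F := D ⊔ 0 with hAdef
  set a : ℕ := (Divisor.degree A).toNat with hadef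
  set l : ℕ := c + a with hldef
  -- a nonzero element of `L(lB - A)`
  have h1 := hadd (l • B - A) A hA0
  rw [sub_add_cancel] at h1
  have h2 := hlowB l
  have h3 : l + 1 ≤ (l + 1) * n := Nat.le_mul_of_pos_right _ hn
  have hpos : 0 < Module.finrank K ↥(riemannRochSpace (l • B - A)) := by omega
  have : Nontrivial ↥(riemannRochSpace (l • B - A)) := Module.nontrivial_of_finrank_pos hpos
  obtain ⟨⟨z, hzmem⟩, hz0⟩ := exists_ne (0 : ↥(riemannRochSpace (l • B - A)))
  have hz : z ≠ 0 := fun h => hz0 (Subtype.ext h)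
  rw [mem_riemannRochSpace_iff] at hzmem
  -- the divisor `D₁ = D - div z ≤ lB`, linearly equivalent to `D`
  obtain ⟨Ez, hEz, _, _⟩ := exists_divisor hF hz
  have hD1 : ∀ v : Place K F, (D - Ez) v = D v + v.ord z⁻¹ := by
    intro v
    rw [Finsupp.sub_apply, hEz v, Place.ord_inv]
    ring
  have hle : D - Ez ≤ l • B := by
    rw [Finsupp.le_def]
    intro v
    have h4 := (hzmem v).resolve_left hz
    have h5 : D v ≤ A v := Finsupp.le_def.mp hDA v
    rw [Finsupp.sub_apply] at h4
    rw [Finsupp.sub_apply, hEz v]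
    linarith
  have hfin := hlin D (D - Ez) z⁻¹ (inv_ne_zero hz) hD1
  have hdeg := degree_eq_of_sub_principal hF (inv_ne_zero hz) hD1
  have hmono := degree_sub_finrank_mono hadd hle
  rw [hfin, hdeg, map_nsmul, hdegB] at hmono
  have h6 : ((l + 1 : ℕ) : ℤ) * (n : ℤ) ≤
      (Module.finrank K ↥(riemannRochSpace (l • B)) : ℤ) + (c : ℤ) := by
    exact_mod_cast h2
  have h7 : (0 : ℤ) < (n : ℤ) := by exact_mod_cast hn
  rw [nsmul_eq_mul] at hmono
  push_cast at h6
  nlinarith

/-! ### Bounded representatives of degree-zero classes -/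

/-- **[Bdd]** (hypothesis form): given Riemann's inequality, every divisor of degree zero is
linearly equivalent to a divisor of bounded `ℓ¹`-norm. -/
theorem exists_l1_bound_of (hF : IsFF1 K F)
    (hRI : ∃ γ : ℤ, ∀ D : Divisor K F,
      Divisor.degree D - γ ≤ (Module.finrank K ↥(riemannRochSpace D) : ℤ)) :
    ∃ M : ℕ, ∀ D ∈ Divisor.degZero (K := K) (F := F), ∃ D' : Divisor K F,
      D - D' ∈ Divisor.principal (K := K) (F := F) ∧ (D'.sum fun _ n => n.natAbs) ≤ M := by
  obtain ⟨γ, hγ⟩ := hRI
  set g : ℕ := γ.toNat with hgdef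
  have hγg : γ ≤ (g : ℤ) := Int.self_le_toNat γ
  refine ⟨2 * (g + 1), fun D hD => ?_⟩
  rw [Divisor.mem_degZero] at hD
  by_cases hne : Nonempty (Place K F)
  · obtain ⟨P₀⟩ := hne
    set E₀ : Divisor K F := Finsupp.single P₀ ((g : ℤ) + 1) with hE₀def
    have hE₀deg : Divisor.degree E₀ = (g : ℤ) + 1 := by
      rw [hE₀def, Divisor.degree_single, place_deg_eq_one hF P₀, Nat.cast_one, mul_one]
    -- a nonzero element of `L(D + E₀)`
    have h1 := hγ (D + E₀)
    rw [map_add, hD, hE₀deg] at h1
    have hpos : 0 < Module.finrank K ↥(riemannRochSpace (D + E₀)) := by omega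
    have : Nontrivial ↥(riemannRochSpace (D + E₀)) := Module.nontrivial_of_finrank_pos hpos
    obtain ⟨⟨f, hfmem⟩, hf0⟩ := exists_ne (0 : ↥(riemannRochSpace (D + E₀)))
    have hf : f ≠ 0 := fun h => hf0 (Subtype.ext h)
    rw [mem_riemannRochSpace_iff] at hfmem
    obtain ⟨Ef, hEf, hEfdeg, hEfprin⟩ := exists_divisor hF hf
    refine ⟨D + Ef, ?_, ?_⟩
    · have : D - (D + Ef) = -Ef := by abel
      rw [this]
      exact (Divisor.principal (K := K) (F := F)).neg_mem hEfprin
    · -- `D + Ef = (D + E₀ + Ef) - E₀` with `D + E₀ + Ef ≥ 0` of degree `g + 1`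
      have heff : (0 : Divisor K F) ≤ D + E₀ + Ef := by
        rw [Finsupp.le_def]
        intro v
        have h4 := (hfmem v).resolve_left hf
        rw [Finsupp.add_apply, hEf v]
        simp only [Finsupp.coe_zero, Pi.zero_apply]
        linarith
      have hdeg : Divisor.degree (D + E₀ + Ef) = (g : ℤ) + 1 := by
        rw [map_add, map_add, hD, hE₀deg, hEfdeg]
        ring
      have hl1 : l1 (D + E₀ + Ef) = g + 1 := by
        have := l1_eq_degree hF heff
        rw [hdeg] at this
        exact_mod_cast this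
      have hl1E : l1 E₀ = g + 1 := by
        rw [hE₀def, l1_single]
        omega
      have hsplit : D + Ef = (D + E₀ + Ef) - E₀ := by abel
      have h5 := l1_sub_le (D + E₀ + Ef) E₀
      rw [← hsplit, hl1, hl1E] at h5
      show l1 (D + Ef) ≤ 2 * (g + 1)
      omega
  · -- no places at all: the only divisor is `0`
    refine ⟨D, ?_, ?_⟩
    · rw [sub_self]
      exact (Divisor.principal (K := K) (F := F)).zero_mem
    · have hD0 : D = 0 := by
        ext v
        exact absurd ⟨v⟩ hne
      rw [hD0]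
      simp

/-- **[Bdd]** directly from the three upstream leaves (hypothesis form). -/
theorem exists_l1_bound_of_leaves (hF : IsFF1 K F)
    (hadd : ∀ D E : Divisor K F, 0 ≤ E →
      Module.finrank K ↥(riemannRochSpace (D + E)) ≤
        Module.finrank K ↥(riemannRochSpace D) + (Divisor.degree E).toNat)
    (hlin : ∀ (D D' : Divisor K F) (z : F), z ≠ 0 →
      (∀ v : Place K F, D' v = D v + v.ord z) →
      Module.finrank K ↥(riemannRochSpace D') = Module.finrank K ↥(riemannRochSpace D))
    (hlow : ∃ (B : Divisor K F) (n c : ℕ), 0 ≤ B ∧ 0 < n ∧ Divisor.degree B = n ∧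
      ∀ l : ℕ, (l + 1) * n ≤ Module.finrank K ↥(riemannRochSpace (l • B)) + c) :
    ∃ M : ℕ, ∀ D ∈ Divisor.degZero (K := K) (F := F), ∃ D' : Divisor K F,
      D - D' ∈ Divisor.principal (K := K) (F := F) ∧ (D'.sum fun _ n => n.natAbs) ≤ M :=
  exists_l1_bound_of hF (riemann_inequality_of hF hadd hlin hlow)

end Fermat.Agent.S37.P.RiemannB
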